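import Fermat.Agent.S37.LF.Defs
import Fermat.Agent.S37.Val
import Fermat.Agent.S37.Statements
import Fermat.Agent.S27.Approx
import Fermat.Agent.S24.Formal

/-!
# S37, block LF: every place of `X₀(M) / ℚ̄` is rational over a number field
-/

set_option autoImplicit false

noncomputable section

namespace Fermat.Agent.S37

open AlgebraicCurve ModularCurve Fermat.Agent.S24 IsLocalRing

variable (M : ℕ)

/-- functions defined over `K₀` are fixed by the automorphisms fixing `K₀` -/
theorem rat_gal_smul_of_definedOver {K₀ : IntermediateField ℚ Kbar} {σ : Kbar ≃ₐ[ℚ] Kbar}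
    (hσ : σ ∈ K₀.fixingSubgroup) (x : FN M)
    (hx : S18.Descent.DefinedOver (modularFunctionFieldFull M) K₀ (x : LaurentSeries Kbar)) :
    gal M σ • x = x := by
  obtain ⟨y, _, hy⟩ := hx
  apply Subtype.ext
  rw [coe_arithmeticGalois_smul, ← hy, coeffMap_coeffMap]
  refine coeffMap_congr (RingHom.ext fun c => ?_) y
  exact (IntermediateField.mem_fixingSubgroup_iff K₀ σ).mp hσ c c.2

theorem rat_gal_smul_toB {K₀ : IntermediateField ℚ Kbar} {σ : Kbar ≃ₐ[ℚ] Kbar}
    (hσ : σ ∈ K₀.fixingSubgroup) (f : S18.FK K₀ M) : gal M σ • toB M K₀ f = toB M K₀ f :=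
  rat_gal_smul_of_definedOver M hσ _ ⟨f, f.2, rfl⟩

theorem rat_gal_smul_jF (σ : Kbar ≃ₐ[ℚ] Kbar) : gal M σ • jF M = jF M :=
  Subtype.ext (coeffMap_coeffEmb σ _)

variable [NeZero M]

/-- a Galois invariant nonconstant function which is regular at `P` -/
theorem rat_exists_coord (P : Pl M) : ∃ x : FN M, Transcendental Kbar x ∧
    (∀ σ : Kbar ≃ₐ[ℚ] Kbar, gal M σ • x = x) ∧ 0 ≤ P.ord x := by
  by_cases h : 0 ≤ P.ord (jF M)
  · exact ⟨jF M, Formal.transcendental_jF M, rat_gal_smul_jF M, h⟩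
  · refine ⟨(jF M)⁻¹, FF.transcendental_inv (Formal.transcendental_jF M), fun σ => ?_, ?_⟩
    · rw [smul_inv'', rat_gal_smul_jF]
    · rw [P.ord_inv]
      omega

/-- a number field such that the automorphisms fixing it fix the place `P` -/
theorem rat_exists_fix (P : Pl M) (K : IntermediateField ℚ Kbar) [FiniteDimensional ℚ K] :
    ∃ K₀ : IntermediateField ℚ Kbar, FiniteDimensional ℚ K₀ ∧ K ≤ K₀ ∧
      ∀ σ ∈ K₀.fixingSubgroup, gal M σ • P = P := by
  classical
  have : Algebra.IsAlgebraic ℚ Kbar := AlgebraicClosure.isAlgebraic ℚ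
  obtain ⟨x, hxtr, hxgal, hxP⟩ := rat_exists_coord M P
  set a := val P x with ha
  set y := x - algebraMap Kbar (FN M) a with hy
  have hxa : x ≠ algebraMap Kbar (FN M) a := by
    intro h
    apply hxtr
    rw [h]
    exact isAlgebraic_algebraMap a
  have hyP : 0 < P.ord y := (val_spec hxP).resolve_left hxa
  have hfin : {v : Pl M | v.ord y ≠ 0}.Finite := FF.finite_ord_ne_zero y
  obtain ⟨h, hhP, hhs⟩ := S27.exists_ord_pos_neg_finset P (hfin.toFinset.erase P)
    (Finset.notMem_erase P _)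
  obtain ⟨K₀, hK₀fin, hKK₀, hc, hdef⟩ := S18.Descent.exists_definedOver_finset
    (F₀ := modularFunctionFieldFull M) {(h : LaurentSeries Kbar)}
    (fun z hz => by rw [Finset.mem_singleton.mp hz]; exact h.2) {a} K
  refine ⟨K₀, hK₀fin, hKK₀, fun σ hσ => ?_⟩
  by_contra hne
  have hσa : σ a = a :=
    (IntermediateField.mem_fixingSubgroup_iff K₀ σ).mp hσ a (hc a (Finset.mem_singleton_self a))
  have hσy : gal M σ • y = y := by
    rw [hy, smul_sub, hxgal, SemilinearAut.smul_algebraMap]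
    congr 2
  have h1 : 0 < (gal M σ • P).ord y := by
    have := SemilinearAut.ord_smul (gal M σ) P y
    rw [hσy] at this
    rw [this]
    exact hyP
  have hmem : gal M σ • P ∈ hfin.toFinset.erase P :=
    Finset.mem_erase.mpr ⟨hne, hfin.mem_toFinset.mpr h1.ne'⟩
  have h2 := hhs _ hmem
  have hσh : gal M σ • h = h :=
    rat_gal_smul_of_definedOver M hσ h (hdef _ (Finset.mem_singleton_self _))
  have h3 := SemilinearAut.ord_smul (gal M σ) P h
  rw [hσh] at h3
  omega

/-- every place is rational over a number field -/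
theorem exists_rational (P : Pl M) (K : IntermediateField ℚ Kbar) [FiniteDimensional ℚ K] :
    ∃ K₀ : IntermediateField ℚ Kbar, FiniteDimensional ℚ K₀ ∧ K ≤ K₀ ∧
      ∀ f : S18.FK K₀ M, 0 ≤ P.ord (toB M K₀ f) → val P (toB M K₀ f) ∈ K₀ := by
  have : IsAlgClosure ℚ Kbar := ⟨inferInstance, AlgebraicClosure.isAlgebraic ℚ⟩
  have : IsGalois ℚ Kbar := inferInstance
  obtain ⟨K₀, hK₀fin, hKK₀, hfix⟩ := rat_exists_fix M P K
  refine ⟨K₀, hK₀fin, hKK₀, fun f _ => ?_⟩
  have key : ∀ c : Kbar, (∀ σ ∈ K₀.fixingSubgroup, σ c = c) → c ∈ K₀ := by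
    intro c hc
    rw [← InfiniteGalois.fixedField_fixingSubgroup K₀, IntermediateField.mem_fixedField_iff]
    exact hc
  apply key
  intro σ hσ
  have h1 := val_smul (gal M σ) P (toB M K₀ f)
  rw [hfix σ hσ, rat_gal_smul_toB M hσ] at h1
  exact h1.symm

end Fermat.Agent.S37

end
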