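import Fermat.Agent.S37.C0.Defs
import Fermat.Agent.S18.Defs
import Fermat.Agent.S18.ModDefs
import Fermat.Agent.S18.Abs.LocalReg
import Fermat.Agent.S18.Descent.HorizontalBC

/-!
# S37, block LF: definitions (owner helper37)
-/

set_option autoImplicit false

noncomputable section

namespace Fermat.Agent.S37

open AlgebraicCurve ModularCurve Fermat.Agent.S24

/-- the integral closure `C` of `A₀[y]` in `F` is regular at every maximal ideal containing the
uniformiser and `w` (take `w = 0` for no condition): the maximal ideal of the local ring is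
generated by `ϖ₀` and one more element. -/
def RegChart {K₀ F : Type*} [Field K₀] [Field F] [Algebra K₀ F] (A₀ : ValuationSubring K₀)
    (ϖ₀ : K₀) (y w : F) : Prop :=
  ∀ ϖB : S18.chart A₀.toSubring y, (ϖB : F) = algebraMap K₀ F ϖ₀ →
    ∀ 𝔫 : Ideal (S18.chart A₀.toSubring y), 𝔫.IsMaximal → ϖB ∈ 𝔫 →
      (∀ wB : S18.chart A₀.toSubring y, (wB : F) = w → wB ∈ 𝔫) → S18.Abs.RegAt ϖB 𝔫

/-- `A ∩ K₀` -/
abbrev A0 (A : ValuationSubring Kbar) (K₀ : IntermediateField ℚ Kbar) : ValuationSubring K₀ :=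
  A.comap (algebraMap K₀ Kbar)

/-- the embedding `F_{M,K₀} → F_{M,ℚ̄}` -/
abbrev toB (M : ℕ) (K₀ : IntermediateField ℚ Kbar) : S18.FK K₀ M →+* FN M :=
  S18.Descent.toBar (modularFunctionFieldFull M) K₀

end Fermat.Agent.S37

end
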