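/-
S37, block LF, task S37-LF-RegBase (owner helper272): regularity of the charts of the base
coordinates `j`, `h₂`, `h₃` over number fields, from `GoodRed.isDedekindDomain_chart_quotient`
(bridge `GoodRed.chart` <-> `S18.chart`).
-/
import Fermat.Agent.S37.LF.Defs
import Fermat.Agent.S18.Abs.Bridge2
import Fermat.Agent.S18.Chart.Const
import Fermat.Agent.S18.Chart.DedUnif
import Fermat.Agent.GAL.KLInputs.Main

set_option autoImplicit false
set_option linter.unusedSectionVars false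
set_option linter.style.haveILetI false

noncomputable section

namespace Fermat.Agent.S37

open Polynomial

namespace RegBase

/-- `RegAt` is invariant under ring isomorphisms. -/
theorem regAt_of_ringEquiv {B C : Type*} [CommRing B] [CommRing C] (e : B ≃+* C) (π : B)
    (𝔫 : Ideal C) (h : S18.Abs.RegAt π (𝔫.comap (e : B →+* C))) : S18.Abs.RegAt (e π) 𝔫 := by
  obtain ⟨t, ht, H⟩ := h
  refine ⟨e t, ht, fun y hy => ?_⟩
  obtain ⟨s, hs, hsy⟩ := H (e.symm y) (by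
    rw [Ideal.mem_comap]
    simpa using hy)
  refine ⟨e s, hs, ?_⟩
  rw [Ideal.mem_span_pair] at hsy ⊢
  obtain ⟨a, b, hab⟩ := hsy
  refine ⟨e a, e b, ?_⟩
  have := congrArg e hab
  simpa using this

section Bridge

variable {K E F : Type*} [Field K] [Field E] [Field F] [Algebra K F] [Algebra K E] [Algebra E F]
  [IsScalarTower K E F] (A₀ : ValuationSubring K) [Algebra A₀ E] [IsScalarTower A₀ K E]

theorem algebraMap_aeval (x : E) (p : A₀[X]) :
    algebraMap E F (aeval x p) = aeval (algebraMap E F x) (p.map A₀.subtype) := by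
  rw [aeval_def, aeval_def, hom_eval₂, eval₂_map]
  congr 1
  ext a
  change algebraMap E F (algebraMap A₀ E a) = algebraMap K F (a : K)
  rw [IsScalarTower.algebraMap_apply A₀ K E, ← IsScalarTower.algebraMap_apply K E F]
  rfl

theorem mem_chart_iff (x : E) (z : F) :
    z ∈ GoodRed.chart A₀ F x ↔ z ∈ S18.chart A₀.toSubring (algebraMap E F x) := by
  rw [S18.mem_chart_iff_isIntegral, mem_integralClosure_iff]
  constructor
  · refine S18.isIntegral_of_forall_exists_algebraMap fun r => ?_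
    have hr : (r : E) ∈ (aeval x : A₀[X] →ₐ[A₀] E).range := by
      rw [← Algebra.adjoin_singleton_eq_range_aeval]
      exact r.2
    obtain ⟨p, hp⟩ := hr
    refine ⟨⟨algebraMap E F (r : E), ?_⟩, rfl⟩
    rw [S18.mem_polyRing_iff]
    refine ⟨p.map A₀.subtype, fun i => ?_, ?_⟩
    · rw [coeff_map]
      exact (p.coeff i).2
    · rw [← algebraMap_aeval]
      exact congrArg _ hp
  · refine S18.isIntegral_of_forall_exists_algebraMap fun s => ?_
    obtain ⟨p, hp, hps⟩ := (S18.mem_polyRing_iff _ _ _).1 s.2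
    have hl : p ∈ Polynomial.lifts A₀.subtype := by
      rw [Polynomial.lifts_iff_coeff_lifts]
      intro i
      exact ⟨⟨_, hp i⟩, rfl⟩
    obtain ⟨q, rfl⟩ := hl
    refine ⟨⟨aeval x q, Polynomial.aeval_mem_adjoin_singleton A₀ x⟩, ?_⟩
    change algebraMap E F (aeval x q) = (s : F)
    rw [algebraMap_aeval]
    exact hps

/-- the two versions of the integral closure of `A₀[x]` -/
def chartEquiv (x : E) :
    GoodRed.chart A₀ F x ≃+* S18.chart A₀.toSubring (algebraMap E F x) where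
  toFun z := ⟨z.1, (mem_chart_iff A₀ x z.1).1 z.2⟩
  invFun z := ⟨z.1, (mem_chart_iff A₀ x z.1).2 z.2⟩
  left_inv _ := rfl
  right_inv _ := rfl
  map_mul' _ _ := rfl
  map_add' _ _ := rfl

theorem coe_chartEquiv (x : E) (z : GoodRed.chart A₀ F x) :
    ((chartEquiv A₀ x z : S18.chart A₀.toSubring (algebraMap E F x)) : F) = (z : F) := rfl

theorem coe_unifChart (x : E) (ϖ : A₀) :
    ((GoodRed.unifChart A₀ F ϖ x : GoodRed.chart A₀ F x) : F) = algebraMap K F (ϖ : K) := by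
  change algebraMap E F (algebraMap A₀ E ϖ) = _
  rw [IsScalarTower.algebraMap_apply A₀ K E, ← IsScalarTower.algebraMap_apply K E F]
  rfl

omit [Field E] [Algebra K E] [Algebra E F] [IsScalarTower K E F] [Algebra A₀ E]
  [IsScalarTower A₀ K E] in
/-- abstract form: a ring `B` isomorphic to the `S18` chart with `B / π` Dedekind. -/
theorem regChart_of_equiv {B : Type*} [CommRing B] (y : F) (e : B ≃+* S18.chart A₀.toSubring y)
    (π : B) (ϖ₀ : K) (hπ : ((e π : S18.chart A₀.toSubring y) : F) = algebraMap K F ϖ₀)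
    (hD : IsDedekindDomain (B ⧸ Ideal.span {π})) : RegChart A₀ ϖ₀ y 0 := by
  intro ϖB hϖB 𝔫 h𝔫 hmem _
  have he : e π = ϖB := by
    apply Subtype.ext
    rw [hπ, hϖB]
  rw [← he]
  apply regAt_of_ringEquiv
  refine S18.Bridge2.regAt_of_isDedekindDomain _ _
    (Ideal.comap_isMaximal_of_surjective _ e.surjective) ?_
  rw [Ideal.mem_comap]
  change e π ∈ 𝔫
  rw [he]
  exact hmem

end Bridge

section Base

open Fermat.Agent.GoodRed Fermat.Agent.S18.Descent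

variable {K E F : Type*} [Field K] [CharZero K] [Field E] [Field F] [Algebra K F] [Algebra K E]
  [Algebra E F] [IsScalarTower K E F] (A₀ : ValuationSubring K) [IsDiscreteValuationRing A₀]
  [Algebra A₀ E] [IsScalarTower A₀ K E] [FiniteDimensional E F]

/-- one chart -/
theorem regChart_of_gaussData (x : E) (hx : Transcendental K x)
    (hgen : IntermediateField.adjoin K {x} = ⊤) (ϖ : A₀) (hϖ : Irreducible ϖ)
    (𝒟 : ValuationSubring F) (hG : GaussData A₀ ϖ 𝒟 x) (g : A₀[X])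
    (hg : Squarefree (g.map (IsLocalRing.residue A₀)))
    (hU : UnramOutsideVS K (algebraMap E F x) (g.map (algebraMap A₀ K))) :
    RegChart A₀ (ϖ : K) (algebraMap E F x) 0 := by
  have N := isDedekindDomain_chart_quotient K ϖ hϖ x hx hgen 𝒟 hG g hg (unramOutside_of_VS x _ hU)
  have h1 := coe_unifChart (F := F) A₀ x ϖ
  exact @regChart_of_equiv K F _ _ _ A₀ (GoodRed.chart A₀ F x) _ (algebraMap E F x)
    (chartEquiv A₀ (F := F) x) (GoodRed.unifChart A₀ F ϖ x) (ϖ : K) h1 N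

/-- both charts -/
theorem regChart_of_base (x : E) (hx : Transcendental K x)
    (hgen : IntermediateField.adjoin K {x} = ⊤) (ϖ : A₀) (hϖ : Irreducible ϖ)
    (𝒟 : ValuationSubring F) (hG : GaussData A₀ ϖ 𝒟 x) (g₀ g₁ : A₀[X])
    (hg₀ : Squarefree (g₀.map (IsLocalRing.residue A₀)))
    (hg₁ : Squarefree (g₁.map (IsLocalRing.residue A₀)))
    (hU₀ : UnramOutsideVS K (algebraMap E F x) (g₀.map (algebraMap A₀ K)))
    (hU₁ : UnramOutsideVS K (algebraMap E F x)⁻¹ (g₁.map (algebraMap A₀ K))) :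
    RegChart A₀ (ϖ : K) (algebraMap E F x) 0 ∧ RegChart A₀ (ϖ : K) (algebraMap E F x)⁻¹ 0 := by
  refine ⟨regChart_of_gaussData A₀ x hx hgen ϖ hϖ 𝒟 hG g₀ hg₀ hU₀, ?_⟩
  have h := regChart_of_gaussData A₀ x⁻¹ (GoodRed.transcendental_inv K x hx)
    (adjoin_inv_eq_top K x hgen) ϖ hϖ 𝒟 (GaussData.inv K ϖ hϖ x hx hgen 𝒟 hG) g₁ hg₁
    (by rw [map_inv₀]; exact hU₁)
  rwa [map_inv₀] at h

end Base

section Wire

open ModularCurve AlgebraicCurve IntermediateField Fermat.Agent.GoodRed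
  Fermat.Agent.S18.Descent Fermat.Agent.S18.Vert Fermat.Agent.S24.FF Fermat.Agent.S28
  Fermat.Agent.GAL.KLInputs

variable {K : Type*} [Field K] [CharZero K] (A₀ : ValuationSubring K)
  [IsDiscreteValuationRing A₀] {N ℓ : ℕ} [Fact ℓ.Prime] (D : UData N ℓ)
  (hℓ : A₀.LiesOverPrime ℓ) (F : IntermediateField K (LaurentSeries K))

set_option synthInstance.maxHeartbeats 400000 in
set_option maxHeartbeats 1000000 in
/-- the general statement, for a base coordinate `x` in the Gauss ring -/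
theorem regChart_of_gauss [IsFF1 K F] (hj : jqModC K ∈ F) (hF : F ≤ bigField A₀ D hℓ)
    (hq : IsQuot A₀ F) (x : gaussVal A₀ F hq)
    (hx : Transcendental (IsLocalRing.ResidueField A₀) (gaussRes hq x))
    (hxK : Transcendental K (x : F))
    (hjx : (⟨jqModC K, hj⟩ : F) ∈ K⟮(x : F)⟯)
    (g₀ g₁ : ℤ[X])
    (hg₀ : Squarefree (g₀.map (Int.castRingHom (IsLocalRing.ResidueField A₀))))
    (hg₁ : Squarefree (g₁.map (Int.castRingHom (IsLocalRing.ResidueField A₀))))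
    (hU₀ : UnramOutsideVS K (x : F) (g₀.map (Int.castRingHom K)))
    (hU₁ : UnramOutsideVS K (x : F)⁻¹ (g₁.map (Int.castRingHom K)))
    (ϖ₀ : K) (h₀ : S18.IsUnif A₀ ϖ₀) :
    RegChart A₀ ϖ₀ (x : F) 0 ∧ RegChart A₀ ϖ₀ (x : F)⁻¹ 0 := by
  letI : Algebra A₀ K⟮(x : F)⟯ := ((algebraMap K K⟮(x : F)⟯).comp A₀.subtype).toAlgebra
  haveI : IsScalarTower A₀ K K⟮(x : F)⟯ := IsScalarTower.of_algebraMap_eq fun _ => rfl
  haveI : FiniteDimensional K⟮(x : F)⟯ F := IsFF1.finite _ hxK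
  have hϖ : Irreducible (⟨ϖ₀, h₀.mem⟩ : A₀) := h₀.irreducible
  have hgen : algebraMap K⟮(x : F)⟯ F (AdjoinSimple.gen K (x : F)) = (x : F) :=
    AdjoinSimple.algebraMap_gen K (x : F)
  have hmapK : ∀ g : ℤ[X], (g.map (Int.castRingHom A₀)).map (algebraMap A₀ K) =
      g.map (Int.castRingHom K) := fun g => by
    rw [Polynomial.map_map]
    congr 1
  have hmapk : ∀ g : ℤ[X], (g.map (Int.castRingHom A₀)).map (IsLocalRing.residue A₀) =
      g.map (Int.castRingHom (IsLocalRing.ResidueField A₀)) := fun g => by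
    rw [Polynomial.map_map]
    congr 1
  have hG : GaussData A₀ (⟨ϖ₀, h₀.mem⟩ : A₀) (gaussVal A₀ F hq) (AdjoinSimple.gen K (x : F)) := by
    refine gaussData hj hF hq (AdjoinSimple.gen K (x : F)) (by rw [hgen]; exact x.2) ?_
      ⟨_, hjx⟩ rfl (by rw [hgen]; exact hjx) hϖ
    convert hx using 2
    exact Subtype.ext hgen
  have h := regChart_of_base A₀ (AdjoinSimple.gen K (x : F)) (transcendental_gen hxK)
    (adjoin_gen_eq_top (x : F)) ⟨ϖ₀, h₀.mem⟩ hϖ _ hG (g₀.map (Int.castRingHom A₀))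
    (g₁.map (Int.castRingHom A₀)) (by rw [hmapk]; exact hg₀) (by rw [hmapk]; exact hg₁)
    (by rw [hmapK, hgen]; exact hU₀) (by rw [hmapK, hgen]; exact hU₁)
  rw [hgen] at h
  exact h

end Wire

section Generic

open ModularCurve AlgebraicCurve IntermediateField Fermat.Agent.GoodRed
  Fermat.Agent.S18.Descent Fermat.Agent.S18.Vert Fermat.Agent.S24.FF Fermat.Agent.S28
  Fermat.Agent.GAL.KLInputs Fermat.Agent.Lib.Hauptmodul

variable {K : Type*} [Field K] [CharZero K] [Algebra ℚ K] (A₀ : ValuationSubring K)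
  [IsDiscreteValuationRing A₀] {M ℓ : ℕ} [NeZero M] [Fact ℓ.Prime] (D : UData M ℓ)
  (hℓ : A₀.LiesOverPrime ℓ)

local notation "FK" => laurentBaseChange K (modularFunctionFieldFull M)

include D hℓ

/-- base `j`, `ℓ ≥ 5`. -/
theorem regChart_j [IsFF1 K FK] (h2 : ℓ ≠ 2) (h3 : ℓ ≠ 3)
    (hU₀ : UnramOutsideVS K (⟨jqModC K, GAL.KLInputs.jqModC_mem K M⟩ : FK)
      ((gB (-1728)).map (Int.castRingHom K)))
    (hU₁ : UnramOutsideVS K (⟨jqModC K, GAL.KLInputs.jqModC_mem K M⟩ : FK)⁻¹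
      ((gA (-1728)).map (Int.castRingHom K)))
    (ϖ₀ : K) (h₀ : S18.IsUnif A₀ ϖ₀) :
    RegChart A₀ ϖ₀ (⟨jqModC K, GAL.KLInputs.jqModC_mem K M⟩ : FK) 0 ∧
      RegChart A₀ ϖ₀ (⟨jqModC K, GAL.KLInputs.jqModC_mem K M⟩ : FK)⁻¹ 0 := by
  have hp : ℓ.Prime := Fact.out
  have hj := GAL.KLInputs.jqModC_mem K M
  have hF := le_bigField A₀ D hℓ
  have hq := isQuot hj hF
  have h1728 : ¬ (ℓ : ℤ) ∣ (-1728) := by
    rw [Int.dvd_neg]
    intro h
    have h' : ℓ ∣ 2 ^ 6 * 3 ^ 3 := by exact_mod_cast h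
    rcases (Nat.Prime.dvd_mul hp).1 h' with h' | h'
    · exact h2 ((Nat.prime_dvd_prime_iff_eq hp Nat.prime_two).1 (hp.dvd_of_dvd_pow h'))
    · exact h3 ((Nat.prime_dvd_prime_iff_eq hp Nat.prime_three).1 (hp.dvd_of_dvd_pow h'))
  have h := regChart_of_gauss A₀ D hℓ _ hj hF hq (baseJ hq hj) (transcendental_baseJ hq hj)
    (by rw [coe_baseJ]; exact transcendental_of_coe _ (transcendental_jqModC K))
    (j_mem_adjoin_baseJ hq hj) (gB (-1728)) (gA (-1728))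
    (squarefree_gB A₀ hp hℓ _ h1728) (squarefree_gA A₀ hp hℓ _ h1728)
    (by rw [coe_baseJ]; exact hU₀) (by rw [coe_baseJ]; exact hU₁) ϖ₀ h₀
  rwa [coe_baseJ] at h

/-- base `h₂`, `ℓ ≠ 2`. -/
theorem regChart_h2 [IsFF1 K FK] (h2 : ℓ ≠ 2) (hM : 2 ∣ M)
    (hU₀ : UnramOutsideVS K (⟨toL K h2Z, toL_h2Z_mem K M hM⟩ : FK)
      ((gA 64).map (Int.castRingHom K)))
    (hU₁ : UnramOutsideVS K (⟨toL K h2Z, toL_h2Z_mem K M hM⟩ : FK)⁻¹
      ((gB 64).map (Int.castRingHom K)))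
    (ϖ₀ : K) (h₀ : S18.IsUnif A₀ ϖ₀) :
    RegChart A₀ ϖ₀ (⟨toL K h2Z, toL_h2Z_mem K M hM⟩ : FK) 0 ∧
      RegChart A₀ ϖ₀ (⟨toL K h2Z, toL_h2Z_mem K M hM⟩ : FK)⁻¹ 0 := by
  have hp : ℓ.Prime := Fact.out
  have hj := GAL.KLInputs.jqModC_mem K M
  have hF := le_bigField A₀ D hℓ
  have hq := isQuot hj hF
  have hP := toL_h2Z_mem K M hM
  have h64 : ¬ (ℓ : ℤ) ∣ 64 := by
    intro h
    have h' : ℓ ∣ 2 ^ 6 := by exact_mod_cast h
    exact h2 ((Nat.prime_dvd_prime_iff_eq hp Nat.prime_two).1 (hp.dvd_of_dvd_pow h'))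
  have h := regChart_of_gauss A₀ D hℓ _ hj hF hq (baseZ hq h2Z hP)
    (transcendental_baseZ hq u2Z constantCoeff_u2Z hP)
    (by rw [coe_baseZ]
        exact transcendental_of_coe _ (transcendental_toL_X_mul K u2Z constantCoeff_u2Z))
    (j_mem_adjoin_base2 hq hj hP) (gA 64) (gB 64)
    (squarefree_gA A₀ hp hℓ _ h64) (squarefree_gB A₀ hp hℓ _ h64)
    (by rw [coe_baseZ]; exact hU₀) (by rw [coe_baseZ]; exact hU₁) ϖ₀ h₀
  rwa [coe_baseZ] at h

/-- base `h₃`, `ℓ ≠ 3`. -/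
theorem regChart_h3 [IsFF1 K FK] (h3 : ℓ ≠ 3) (hM : 3 ∣ M)
    (hU₀ : UnramOutsideVS K (⟨toL K h3Z, toL_h3Z_mem K M hM⟩ : FK)
      ((gA 27).map (Int.castRingHom K)))
    (hU₁ : UnramOutsideVS K (⟨toL K h3Z, toL_h3Z_mem K M hM⟩ : FK)⁻¹
      ((gB 27).map (Int.castRingHom K)))
    (ϖ₀ : K) (h₀ : S18.IsUnif A₀ ϖ₀) :
    RegChart A₀ ϖ₀ (⟨toL K h3Z, toL_h3Z_mem K M hM⟩ : FK) 0 ∧
      RegChart A₀ ϖ₀ (⟨toL K h3Z, toL_h3Z_mem K M hM⟩ : FK)⁻¹ 0 := by
  have hp : ℓ.Prime := Fact.out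
  have hj := GAL.KLInputs.jqModC_mem K M
  have hF := le_bigField A₀ D hℓ
  have hq := isQuot hj hF
  have hP := toL_h3Z_mem K M hM
  have h27 : ¬ (ℓ : ℤ) ∣ 27 := by
    intro h
    have h' : ℓ ∣ 3 ^ 3 := by exact_mod_cast h
    exact h3 ((Nat.prime_dvd_prime_iff_eq hp Nat.prime_three).1 (hp.dvd_of_dvd_pow h'))
  have h := regChart_of_gauss A₀ D hℓ _ hj hF hq (baseZ hq h3Z hP)
    (transcendental_baseZ hq u3Z constantCoeff_u3Z hP)
    (by rw [coe_baseZ]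
        exact transcendental_of_coe _ (transcendental_toL_X_mul K u3Z constantCoeff_u3Z))
    (j_mem_adjoin_base3 hq hj hP) (gA 27) (gB 27)
    (squarefree_gA A₀ hp hℓ _ h27) (squarefree_gB A₀ hp hℓ _ h27)
    (by rw [coe_baseZ]; exact hU₀) (by rw [coe_baseZ]; exact hU₁) ϖ₀ h₀
  rwa [coe_baseZ] at h

end Generic

end RegBase

section Final

open ModularCurve AlgebraicCurve Fermat.Agent.S24 Fermat.Agent.S18.Descent Fermat.Agent.S28
  Fermat.Agent.GAL.KLInputs Fermat.Agent.Lib.Hauptmodul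

variable (A : ValuationSubring Kbar) (M : ℕ) [NeZero M] (ℓ : ℕ) [Fact ℓ.Prime]
  (hA : A.LiesOverPrime ℓ) (hℓM : ¬ ℓ ∣ M) (K₀ : IntermediateField ℚ Kbar)
  [FiniteDimensional ℚ K₀] (ϖ₀ : K₀) (h₀ : S18.IsUnif (A0 A K₀) ϖ₀)

include hA hℓM h₀

theorem regChart_baseJ (h2 : ℓ ≠ 2) (h3 : ℓ ≠ 3) :
    RegChart (A0 A K₀) ϖ₀ (S18.jK K₀ M) 0 ∧ RegChart (A0 A K₀) ϖ₀ (S18.jK K₀ M)⁻¹ 0 := by
  have hp : ℓ.Prime := Fact.out
  obtain ⟨D, -⟩ := Export.exists_UData_card M ℓ hℓM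
  haveI : IsDiscreteValuationRing (A0 A K₀) := isDiscreteValuationRing_restrict K₀ hp.ne_zero hA
  have hℓ : (A0 A K₀).LiesOverPrime ℓ := restrict_liesOverPrime K₀ hA
  have e : S18.jK K₀ M = ⟨jqModC K₀, GAL.KLInputs.jqModC_mem K₀ M⟩ := Subtype.ext (coeffEmb_jq K₀)
  rw [e]
  exact RegBase.regChart_j (A0 A K₀) D hℓ h2 h3 (unram_jK M K₀) (unram_jK_inv M K₀) ϖ₀ h₀

theorem regChart_baseH2 (h2 : ℓ ≠ 2) (hM : 2 ∣ M) :
    RegChart (A0 A K₀) ϖ₀ (⟨toL K₀ h2Z, toL_h2Z_mem K₀ M hM⟩ : S18.FK K₀ M) 0 ∧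
      RegChart (A0 A K₀) ϖ₀ (⟨toL K₀ h2Z, toL_h2Z_mem K₀ M hM⟩ : S18.FK K₀ M)⁻¹ 0 := by
  have hp : ℓ.Prime := Fact.out
  obtain ⟨D, -⟩ := Export.exists_UData_card M ℓ hℓM
  haveI : IsDiscreteValuationRing (A0 A K₀) := isDiscreteValuationRing_restrict K₀ hp.ne_zero hA
  have hℓ : (A0 A K₀).LiesOverPrime ℓ := restrict_liesOverPrime K₀ hA
  exact RegBase.regChart_h2 (A0 A K₀) D hℓ h2 hM (unram_h2K M K₀ hM) (unram_h2K_inv M K₀ hM) ϖ₀ h₀

theorem regChart_baseH3 (h3 : ℓ ≠ 3) (hM : 3 ∣ M) :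
    RegChart (A0 A K₀) ϖ₀ (⟨toL K₀ h3Z, toL_h3Z_mem K₀ M hM⟩ : S18.FK K₀ M) 0 ∧
      RegChart (A0 A K₀) ϖ₀ (⟨toL K₀ h3Z, toL_h3Z_mem K₀ M hM⟩ : S18.FK K₀ M)⁻¹ 0 := by
  have hp : ℓ.Prime := Fact.out
  obtain ⟨D, -⟩ := Export.exists_UData_card M ℓ hℓM
  haveI : IsDiscreteValuationRing (A0 A K₀) := isDiscreteValuationRing_restrict K₀ hp.ne_zero hA
  have hℓ : (A0 A K₀).LiesOverPrime ℓ := restrict_liesOverPrime K₀ hA
  exact RegBase.regChart_h3 (A0 A K₀) D hℓ h3 hM (unram_h3K M K₀ hM) (unram_h3K_inv M K₀ hM) ϖ₀ h₀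

end Final

end Fermat.Agent.S37
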