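import Fermat.Agent.S37.LF.RegJ.AbsH3
import Fermat.Agent.S37.LF.RegBase
import Fermat.Agent.S18.Descent.JLine
import Fermat.Agent.S18.Gauss.VertJ

/-!
# S37, block LF, node RegJ: the integral closures of `A₀[j]`, `A₀[1/j]` in `F_{M,K₀}` are regular

Base `j` for `ℓ ≥ 5`; transfer from the `h₂`-charts (`ℓ = 3`, `2 ∣ M`) and from the `h₃`-charts
(`ℓ = 2`, `3 ∣ M`).
-/

set_option autoImplicit false

noncomputable section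

namespace Fermat.Agent.S37

open AlgebraicCurve ModularCurve Fermat.Agent.S24 Fermat.Agent.GAL.KLInputs
  Fermat.Agent.Lib.Hauptmodul

namespace RegJ

theorem regChart_of_zero {K₀ F : Type*} [Field K₀] [Field F] [Algebra K₀ F]
    {A₀ : ValuationSubring K₀} {ϖ₀ : K₀} {y : F} (h : RegChart A₀ ϖ₀ y 0) (w : F) :
    RegChart A₀ ϖ₀ y w := fun ϖB hϖB 𝔫 h𝔫 hϖ _ =>
  h ϖB hϖB 𝔫 h𝔫 hϖ fun wB hwB => by
    have : wB = 0 := Subtype.ext hwB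
    rw [this]
    exact 𝔫.zero_mem

theorem ofNat_inv_mem {K : Type*} [Field K] (A₀ : ValuationSubring K) {ℓ : ℕ} (hp : ℓ.Prime)
    (hℓ : A₀.LiesOverPrime ℓ) (n : ℕ) [n.AtLeastTwo] (hn : ¬ ℓ ∣ n) :
    (OfNat.ofNat n : K)⁻¹ ∈ A₀ := by
  obtain ⟨b, hb⟩ := (isUnit_natCast A₀ hp hℓ n hn).exists_right_inv
  have h1 : (n : K) * (b : K) = 1 := by
    have := congrArg Subtype.val hb
    simpa using this
  have h2 : (OfNat.ofNat n : K)⁻¹ = b := by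
    rw [← Nat.cast_ofNat (R := K)]
    exact (eq_inv_of_mul_eq_one_right h1).symm
  rw [h2]
  exact b.2

variable (M : ℕ) [NeZero M] (K : Type*) [Field K] [Algebra ℚ K]

theorem jK_ne_zero : S18.jK K M ≠ 0 := by
  intro h
  have h1 : ((S18.jK K M : S18.FK K M) : LaurentSeries K) = 0 := by rw [h]; rfl
  rw [S18.Gauss.coe_jK] at h1
  have := transcendental_jqModC K
  rw [h1] at this
  exact this isAlgebraic_zero

theorem jK_mul_h2 (hM : 2 ∣ M) :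
    S18.jK K M * (⟨toL K h2Z, toL_h2Z_mem K M hM⟩ : S18.FK K M) =
      (1 + 256 * (⟨toL K h2Z, toL_h2Z_mem K M hM⟩ : S18.FK K M)) ^ 3 := by
  apply (S18.FK K M).val.injective
  simp only [map_mul, map_pow, map_add, map_one, map_ofNat]
  show ((S18.jK K M : S18.FK K M) : LaurentSeries K) * toL K h2Z = (1 + 256 * toL K h2Z) ^ 3
  rw [S18.Gauss.coe_jK]
  exact jqModC_mul_h2 K

theorem jK_mul_h3 (hM : 3 ∣ M) :
    S18.jK K M * (⟨toL K h3Z, toL_h3Z_mem K M hM⟩ : S18.FK K M) =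
      (1 + 27 * (⟨toL K h3Z, toL_h3Z_mem K M hM⟩ : S18.FK K M)) *
        (1 + 243 * (⟨toL K h3Z, toL_h3Z_mem K M hM⟩ : S18.FK K M)) ^ 3 := by
  apply (S18.FK K M).val.injective
  simp only [map_mul, map_pow, map_add, map_one, map_ofNat]
  show ((S18.jK K M : S18.FK K M) : LaurentSeries K) * toL K h3Z =
    (1 + 27 * toL K h3Z) * (1 + 243 * toL K h3Z) ^ 3
  rw [S18.Gauss.coe_jK]
  exact jqModC_mul_h3 K

theorem h2_ne_zero (hM : 2 ∣ M) : (⟨toL K h2Z, toL_h2Z_mem K M hM⟩ : S18.FK K M) ≠ 0 := by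
  intro h
  exact toL_X_mul_ne_zero K u2Z constantCoeff_u2Z (congrArg Subtype.val h)

theorem h3_ne_zero (hM : 3 ∣ M) : (⟨toL K h3Z, toL_h3Z_mem K M hM⟩ : S18.FK K M) ≠ 0 := by
  intro h
  exact toL_X_mul_ne_zero K u3Z constantCoeff_u3Z (congrArg Subtype.val h)

end RegJ

open RegJ

variable (A : ValuationSubring Kbar) (M : ℕ) [NeZero M]

/-- task S37-LF-RegJ -/
theorem regChart_j (ℓ : ℕ) [Fact ℓ.Prime] (hA : A.LiesOverPrime ℓ) (hℓM : ¬ ℓ ∣ M)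
    (hG : GoodBase M ℓ) (K₀ : IntermediateField ℚ Kbar) [FiniteDimensional ℚ K₀] (ϖ₀ : K₀)
    (h₀ : S18.IsUnif (A0 A K₀) ϖ₀) (hℓA : (ℓ : K₀) / ϖ₀ ∈ A0 A K₀) :
    RegChart (A0 A K₀) ϖ₀ (S18.jK K₀ M) 0 ∧
      RegChart (A0 A K₀) ϖ₀ (S18.jK K₀ M)⁻¹ (S18.jK K₀ M)⁻¹ := by
  have hp : ℓ.Prime := Fact.out
  have hℓ : (A0 A K₀).LiesOverPrime ℓ := S18.Gauss.liesOverPrime_of_div_mem h₀ hℓA
  rcases hG with h5 | ⟨h3, hM⟩ | ⟨h2, hM⟩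
  · obtain ⟨r1, r2⟩ := regChart_baseJ A M ℓ hA hℓM K₀ ϖ₀ h₀ (by omega) (by omega)
    exact ⟨r1, regChart_of_zero r2 _⟩
  · obtain ⟨r1, r2⟩ := regChart_baseH2 A M ℓ hA hℓM K₀ ϖ₀ h₀ (by omega) hM
    have h256 : (256 : K₀)⁻¹ ∈ A0 A K₀ := ofNat_inv_mem _ hp hℓ 256 (by rw [h3]; norm_num)
    exact ⟨regChart_fin_of_h2 _ ϖ₀ h₀ h256 _ _ (h2_ne_zero M K₀ hM) (jK_mul_h2 M K₀ hM) r1,
      regChart_inf_of_h2 _ ϖ₀ h₀ h256 _ _ (h2_ne_zero M K₀ hM) (jK_ne_zero M K₀)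
        (jK_mul_h2 M K₀ hM) r1 r2⟩
  · obtain ⟨r1, r2⟩ := regChart_baseH3 A M ℓ hA hℓM K₀ ϖ₀ h₀ (by omega) hM
    have i27 : (27 : K₀)⁻¹ ∈ A0 A K₀ := ofNat_inv_mem _ hp hℓ 27 (by rw [h2]; norm_num)
    have i243 : (243 : K₀)⁻¹ ∈ A0 A K₀ := ofNat_inv_mem _ hp hℓ 243 (by rw [h2]; norm_num)
    have i9 : (9 : K₀)⁻¹ ∈ A0 A K₀ := ofNat_inv_mem _ hp hℓ 9 (by rw [h2]; norm_num)
    exact ⟨regChart_fin_of_h3 _ ϖ₀ h₀ i27 i243 _ _ (h3_ne_zero M K₀ hM) (jK_mul_h3 M K₀ hM) r1,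
      regChart_inf_of_h3 _ ϖ₀ h₀ i27 i9 _ _ (h3_ne_zero M K₀ hM) (jK_ne_zero M K₀)
        (jK_mul_h3 M K₀ hM) r1 r2⟩

theorem toB_jK (K₀ : IntermediateField ℚ Kbar) : toB M K₀ (S18.jK K₀ M) = jF M := by
  have e : S18.jK K₀ M = S18.Descent.jK M K₀ := Subtype.ext (S18.Descent.coeffEmb_jq K₀)
  rw [e]
  exact S18.Descent.toBar_jK M K₀

end Fermat.Agent.S37

end
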