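import Fermat.Agent.S37.LF.Glue.Main
import Fermat.Agent.S37.LF.Rational
import Fermat.Agent.S37.LF.RegJ
import Fermat.Agent.S18.Descent.DVRUnif

/-!
# S37, block LF: local uniformisers at all places (owner helper37)
-/

set_option autoImplicit false
set_option linter.unusedSectionVars false

noncomputable section

namespace Fermat.Agent.S37

open AlgebraicCurve ModularCurve Fermat.Agent.S24 IsLocalRing

variable (A : ValuationSubring Kbar) (M : ℕ) [NeZero M]

theorem val_zero_mem (P : Pl M) : val P (0 : FN M) ∈ A.nonunits := by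
  rw [val_zero]
  exact zero_mem _

theorem val_mem_of_tube_zero (P : Pl M) (hP : Tube A M (jF M)⁻¹ 0 P) :
    val P (jF M)⁻¹ ∈ A.nonunits :=
  (resA_eq_zero_iff hP.1.2).mp hP.2

theorem lf (ℓ : ℕ) [Fact ℓ.Prime] (hA : A.LiesOverPrime ℓ) (hℓM : ¬ ℓ ∣ M)
    (hG : GoodBase M ℓ) (hQF : QAFin A M) (hQI : QAInf A M)
    (hYj : ∀ Y : LaurentSeries A, HasIntExp A M (jF M) Y → Transcendental (kA A) (rho A Y))
    (hYi : ∀ Y : LaurentSeries A, HasIntExp A M (jF M)⁻¹ Y → Transcendental (kA A) (rho A Y)) :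
    LF A M := by
  constructor
  · intro P hP
    obtain ⟨K₀, hK₀, -, hrat⟩ := exists_rational M P ⊥
    obtain ⟨ϖ₀, h₀, hℓA⟩ := S18.exists_isUnif_comap A hA K₀
    exact lfAt_of_chart A M (jF M) (Formal.transcendental_jF M) P hP hQF hYj K₀ ϖ₀ h₀ _
      (toB_jK M K₀) hrat 0 (by rw [map_zero]; exact val_zero_mem A M P)
      (regChart_j A M ℓ hA hℓM hG K₀ ϖ₀ h₀ hℓA).1
  · intro P hP
    obtain ⟨K₀, hK₀, -, hrat⟩ := exists_rational M P ⊥
    obtain ⟨ϖ₀, h₀, hℓA⟩ := S18.exists_isUnif_comap A hA K₀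
    exact lfAt_of_chart A M (jF M)⁻¹ (FF.transcendental_inv (Formal.transcendental_jF M)) P hP.1
      hQI hYi K₀ ϖ₀ h₀ _ (by rw [map_inv₀, toB_jK]) hrat _
      (by rw [map_inv₀, toB_jK]; exact val_mem_of_tube_zero A M P hP)
      (regChart_j A M ℓ hA hℓM hG K₀ ϖ₀ h₀ hℓA).2

end Fermat.Agent.S37

end
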