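import Mathlib

/-!
# S37, block LF, abstract part (Mathlib only)

`A`-points in the residue disc of a regular rational point: uniqueness, local principality,
order one (Nakayama).
-/

set_option autoImplicit false

noncomputable section

namespace Fermat.Agent.S37

open IsLocalRing

section Abs

variable {A₀ C A : Type*} [CommRing A₀] [CommRing C] [CommRing A] [IsLocalRing A]
  [Algebra A₀ C] [Algebra A₀ A] [Algebra.FiniteType A₀ C]

/-- two `A`-points of `C` in the residue disc of a regular rational point `𝔫 = (ϖ₀, t)` with the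
same `t`-coordinate are equal -/
theorem lfAbs_uniq (ϖ₀ : A₀) (t : C) (𝔫 : Ideal C) (ht : t ∈ 𝔫)
    (hϖ : algebraMap A₀ A ϖ₀ ∈ maximalIdeal A)
    (hres : ∀ y : C, ∃ y₀ : A₀, y - algebraMap A₀ C y₀ ∈ 𝔫)
    (hreg : ∀ y ∈ 𝔫, ∃ s, s ∉ 𝔫 ∧ s * y ∈ Ideal.span {algebraMap A₀ C ϖ₀, t})
    (e e' : C →ₐ[A₀] A) (he : ∀ y, y ∈ 𝔫 ↔ e y ∈ maximalIdeal A)
    (he' : ∀ y, y ∈ 𝔫 ↔ e' y ∈ maximalIdeal A) (hte : e t = e' t) : e = e' := by
  classical
  obtain ⟨G, hG⟩ := (Algebra.FiniteType.out : (⊤ : Subalgebra A₀ C).FG)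
  set I : Ideal A := Ideal.span ((fun g => e g - e' g) '' (G : Set C)) with hI
  have hIfg : (I : Submodule A A).FG := ⟨G.image (fun g => e g - e' g), by
    rw [hI, Finset.coe_image]⟩
  -- every difference lies in `I`
  have hd : ∀ y : C, e y - e' y ∈ I := by
    intro y
    have hy : y ∈ Algebra.adjoin A₀ (G : Set C) := by rw [hG]; trivial
    induction hy using Algebra.adjoin_induction with
    | mem x hx => exact Ideal.subset_span ⟨x, hx, rfl⟩
    | algebraMap r => simp
    | add x y _ _ hx hy =>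
      have : e (x + y) - e' (x + y) = (e x - e' x) + (e y - e' y) := by
        rw [map_add, map_add]; ring
      rw [this]; exact I.add_mem hx hy
    | mul x y _ _ hx hy =>
      have : e (x * y) - e' (x * y) = e x * (e y - e' y) + e' y * (e x - e' x) := by
        rw [map_mul, map_mul]; ring
      rw [this]; exact I.add_mem (I.mul_mem_left _ hy) (I.mul_mem_left _ hx)
  have hkey : ∀ y : C, e y - e' y ∈ maximalIdeal A • I := by
    intro y
    obtain ⟨y₀, hy₀⟩ := hres y
    obtain ⟨s, hs, hsy⟩ := hreg _ hy₀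
    obtain ⟨y₁, y₂, h12⟩ := Ideal.mem_span_pair.mp hsy
    have hes : IsUnit (e s) := by
      by_contra h
      exact hs ((he s).mpr ((mem_maximalIdeal _).mpr h))
    have h1 := congrArg e h12
    have h2 := congrArg e' h12
    simp only [map_add, map_mul, map_sub, AlgHom.commutes] at h1 h2
    have hm : e' (y - algebraMap A₀ C y₀) ∈ maximalIdeal A := (he' _).mp hy₀
    rw [map_sub, AlgHom.commutes] at hm
    have hidentity : e s * (e y - e' y) =
        algebraMap A₀ A ϖ₀ * (e y₁ - e' y₁) + e t * (e y₂ - e' y₂)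
          - (e' y - algebraMap A₀ A y₀) * (e s - e' s) := by
      rw [← hte] at h2
      linear_combination h2 - h1
    have hmem : e s * (e y - e' y) ∈ maximalIdeal A • I := by
      rw [hidentity]
      refine Submodule.sub_mem _ (Submodule.add_mem _ ?_ ?_) ?_
      · exact Submodule.smul_mem_smul hϖ (hd _)
      · exact Submodule.smul_mem_smul ((he t).mp ht) (hd _)
      · exact Submodule.smul_mem_smul hm (hd _)
    obtain ⟨u, hu⟩ := hes
    have : e y - e' y = (↑u⁻¹ : A) * (e s * (e y - e' y)) := by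
      rw [← hu, ← mul_assoc, Units.inv_mul, one_mul]
    rw [this]
    exact Ideal.mul_mem_left _ _ hmem
  have hle : (I : Submodule A A) ≤ maximalIdeal A • (I : Submodule A A) := by
    rw [hI]
    refine Ideal.span_le.mpr ?_
    rintro _ ⟨g, -, rfl⟩
    exact hkey g
  have hbot : (I : Submodule A A) = ⊥ :=
    Submodule.eq_bot_of_le_smul_of_le_jacobson_bot (maximalIdeal A) I hIfg hle
      (by rw [IsLocalRing.jacobson_eq_maximalIdeal ⊥ bot_ne_top])
  ext y
  have := hd y
  rw [hbot] at this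
  exact sub_eq_zero.mp ((Submodule.mem_bot A).mp this)

/-- the ideal of an `A`-point in the residue disc of `𝔫 = (ϖ₀, t)` is locally generated by
`t - t(point)` -/
theorem lfAbs_simple {D : Type*} [CommRing D] [Algebra A D] (ι : C →+* D)
    (hι : ∀ a : A₀, ι (algebraMap A₀ C a) = algebraMap A D (algebraMap A₀ A a))
    (hgen : Algebra.adjoin A (Set.range ι) = ⊤) (ev : D →ₐ[A] A)
    (ϖ₀ : A₀) (t : C) (𝔫 : Ideal C) (ht : t ∈ 𝔫)
    (hϖ : algebraMap A₀ A ϖ₀ ∈ maximalIdeal A)
    (hres : ∀ y : C, ∃ y₀ : A₀, y - algebraMap A₀ C y₀ ∈ 𝔫)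
    (hreg : ∀ y ∈ 𝔫, ∃ s, s ∉ 𝔫 ∧ s * y ∈ Ideal.span {algebraMap A₀ C ϖ₀, t})
    (he : ∀ y, y ∈ 𝔫 ↔ ev (ι y) ∈ maximalIdeal A) :
    ∃ σ : D, IsUnit (ev σ) ∧ ∀ z : D, ev z = 0 →
      ∃ z' : D, σ * z = (ι t - algebraMap A D (ev (ι t))) * z' := by
  classical
  obtain ⟨G, hG⟩ := (Algebra.FiniteType.out : (⊤ : Subalgebra A₀ C).FG)
  -- the "centering" map
  set m : D → D := fun x => x - algebraMap A D (ev x) with hm
  have m_add : ∀ x y, m (x + y) = m x + m y := by
    intro x y; simp only [hm, map_add]; ring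
  have m_sub : ∀ x y, m (x - y) = m x - m y := by
    intro x y; simp only [hm, map_sub]; ring
  have m_mul : ∀ x y, m (x * y) = x * m y + algebraMap A D (ev y) * m x := by
    intro x y; simp only [hm, map_mul]; ring
  have m_const : ∀ a : A, m (algebraMap A D a) = 0 := by
    intro a; simp [hm]
  have m_cmul : ∀ (a : A) (x : D), m (algebraMap A D a * x) = algebraMap A D a * m x := by
    intro a x; rw [m_mul, m_const, mul_zero, add_zero]
  set τ : D := m (ι t) with hτ
  set J : Ideal D := Ideal.span ((fun g => m (ι g)) '' (G : Set C)) with hJ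
  have hJfg : (J : Submodule D D).FG := ⟨G.image (fun g => m (ι g)), by
    rw [hJ, Finset.coe_image]⟩
  have hmι : ∀ c : C, m (ι c) ∈ J := by
    intro c
    have hc : c ∈ Algebra.adjoin A₀ (G : Set C) := by rw [hG]; trivial
    induction hc using Algebra.adjoin_induction with
    | mem x hx => exact Ideal.subset_span ⟨x, hx, rfl⟩
    | algebraMap r => rw [hι, m_const]; exact J.zero_mem
    | add x y _ _ hx hy => rw [map_add, m_add]; exact J.add_mem hx hy
    | mul x y _ _ hx hy =>
      rw [map_mul, m_mul]; exact J.add_mem (J.mul_mem_left _ hy) (J.mul_mem_left _ hx)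
  have hmJ : ∀ x : D, m x ∈ J := by
    intro x
    have hx : x ∈ Algebra.adjoin A (Set.range ι) := by rw [hgen]; trivial
    induction hx using Algebra.adjoin_induction with
    | mem x hx => obtain ⟨c, rfl⟩ := hx; exact hmι c
    | algebraMap r => rw [m_const]; exact J.zero_mem
    | add x y _ _ hx hy => rw [m_add]; exact J.add_mem hx hy
    | mul x y _ _ hx hy =>
      rw [m_mul]; exact J.add_mem (J.mul_mem_left _ hy) (J.mul_mem_left _ hx)
  set 𝔞 : Ideal D := (maximalIdeal A).map (algebraMap A D) with h𝔞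
  have hconst𝔞 : ∀ a ∈ maximalIdeal A, algebraMap A D a ∈ 𝔞 := fun a ha =>
    Ideal.mem_map_of_mem _ ha
  -- the target submodule
  set T : Ideal D := Ideal.span {τ} ⊔ 𝔞 • J with hT
  have hstep : ∀ c : C, ∃ s : C, s ∉ 𝔫 ∧ ι s * m (ι c) ∈ T := by
    intro c
    obtain ⟨y₀, hy₀⟩ := hres c
    obtain ⟨s, hs, hsy⟩ := hreg _ hy₀
    obtain ⟨y₁, y₂, h12⟩ := Ideal.mem_span_pair.mp hsy
    refine ⟨s, hs, ?_⟩
    have h1 := congrArg (fun x => m (ι x)) h12
    simp only [map_add, map_mul, map_sub, hι, m_add] at h1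
    rw [mul_comm (ι y₁), m_cmul, m_mul (ι y₂) (ι t), m_mul (ι s), m_sub, m_const, sub_zero] at h1
    have hidentity : ι s * m (ι c) = τ * ι y₂
        + algebraMap A D (algebraMap A₀ A ϖ₀) * m (ι y₁)
        + algebraMap A D (ev (ι t)) * m (ι y₂)
        - algebraMap A D (ev (ι c - algebraMap A D (algebraMap A₀ A y₀))) * m (ι s) := by
      rw [hτ]
      linear_combination -h1
    rw [hidentity]
    have hmem : ev (ι c - algebraMap A D (algebraMap A₀ A y₀)) ∈ maximalIdeal A := by
      have := (he _).mp hy₀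
      rwa [map_sub, hι] at this
    refine T.sub_mem (T.add_mem (T.add_mem ?_ ?_) ?_) ?_
    · exact Ideal.mem_sup_left (Ideal.mul_mem_right _ _ (Ideal.mem_span_singleton_self τ))
    · exact Ideal.mem_sup_right (Submodule.smul_mem_smul (hconst𝔞 _ hϖ) (hmι _))
    · exact Ideal.mem_sup_right (Submodule.smul_mem_smul (hconst𝔞 _ ((he t).mp ht)) (hmι _))
    · exact Ideal.mem_sup_right (Submodule.smul_mem_smul (hconst𝔞 _ hmem) (hmι _))
  choose sf hsf hsfT using hstep
  set S : D := ∏ g ∈ G, ι (sf g) with hS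
  have hSJ : ∀ j ∈ J, S * j ∈ T := by
    intro j hj
    rw [hJ] at hj
    induction hj using Submodule.span_induction with
    | mem x hx =>
      obtain ⟨g, hg, rfl⟩ := hx
      have hg' : g ∈ G := hg
      rw [hS, ← Finset.mul_prod_erase G _ hg', mul_right_comm]
      exact T.mul_mem_right _ (hsfT g)
    | zero => rw [mul_zero]; exact T.zero_mem
    | add x y _ _ hx hy => rw [mul_add]; exact T.add_mem hx hy
    | smul a x _ hx => rw [smul_eq_mul, mul_left_comm]; exact T.mul_mem_left _ hx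
  have hevS : IsUnit (ev S) := by
    rw [hS, map_prod]
    refine IsUnit.prod_iff.mpr (fun g _ => ?_)
    by_contra h
    exact hsf g ((he _).mpr ((mem_maximalIdeal _).mpr h))
  obtain ⟨a, ha⟩ := hevS
  set u : D := algebraMap A D (↑a⁻¹ : A) with hu
  set μ : D := u * S - 1 with hμ
  have hevμ : ev μ = 0 := by
    rw [hμ, hu, map_sub, map_mul, AlgHom.commutes, ← ha, map_one]
    simp
  set I' : Ideal D := 𝔞 ⊔ Ideal.span {μ} with hI'
  have hJle : ∀ j ∈ J, j ∈ Ideal.span {τ} ⊔ I' • J := by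
    intro j hj
    have h1 : u * (S * j) ∈ T := T.mul_mem_left _ (hSJ j hj)
    have h2 : j = u * (S * j) - μ * j := by rw [hμ]; ring
    rw [h2]
    refine Ideal.sub_mem _ ?_ ?_
    · have hTle : T ≤ Ideal.span {τ} ⊔ I' • J :=
        sup_le le_sup_left
          (le_trans (Submodule.smul_mono_left (le_sup_left : 𝔞 ≤ I')) le_sup_right)
      exact hTle h1
    · exact Ideal.mem_sup_right (Submodule.smul_mem_smul
        (Ideal.mem_sup_right (Ideal.mem_span_singleton_self μ)) hj)
  set q := (Ideal.span {τ} : Submodule D D).mkQ with hq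
  have hN : Submodule.map q J ≤ I' • Submodule.map q J := by
    rw [← Submodule.map_smul'']
    rintro _ ⟨j, hj, rfl⟩
    obtain ⟨x, hx, y, hy, hxy⟩ := Submodule.mem_sup.mp (hJle j hj)
    refine ⟨y, hy, ?_⟩
    rw [← hxy, map_add]
    have : q x = 0 := by rw [hq, Submodule.mkQ_apply, Submodule.Quotient.mk_eq_zero]; exact hx
    rw [this, zero_add]
  obtain ⟨r, hr1, hr0⟩ := Submodule.exists_sub_one_mem_and_smul_eq_zero_of_fg_of_le_smul I'
    (Submodule.map q J) (Submodule.FG.map q hJfg) hN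
  have hI'le : I' ≤ (maximalIdeal A).comap (ev : D →+* A) := by
    refine sup_le ?_ ?_
    · rw [h𝔞, Ideal.map_le_iff_le_comap]
      intro x hx
      simpa using hx
    · rw [Ideal.span_singleton_le_iff_mem]
      show ev μ ∈ maximalIdeal A
      rw [hevμ]; exact Ideal.zero_mem _
  refine ⟨r, ?_, ?_⟩
  · by_contra h
    have h1 : ev r ∈ maximalIdeal A := (mem_maximalIdeal _).mpr h
    have h2 : ev (r - 1) ∈ maximalIdeal A := hI'le hr1
    rw [map_sub, map_one] at h2
    have h3 : (1 : A) ∈ maximalIdeal A := by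
      have := Ideal.sub_mem _ h1 h2
      simpa using this
    exact (Ideal.ne_top_iff_one _).mp (maximalIdeal.isMaximal A).ne_top h3
  · intro z hz
    have hzJ : z ∈ J := by
      have := hmJ z
      simpa [hm, hz] using this
    have h0 := hr0 (q z) ⟨z, hzJ, rfl⟩
    rw [← map_smul, hq, Submodule.mkQ_apply, Submodule.Quotient.mk_eq_zero] at h0
    obtain ⟨z', hz'⟩ := Ideal.mem_span_singleton'.mp h0
    refine ⟨z', ?_⟩
    rw [smul_eq_mul] at hz'
    rw [← hz', mul_comm]

/-- a local generator of the ideal of a point has order one -/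
theorem lfAbs_ord {F : Type*} [Field F] (ord : F → ℤ)
    (hmul : ∀ x y : F, x ≠ 0 → y ≠ 0 → ord (x * y) = ord x + ord y)
    (hone : ∃ u : F, u ≠ 0 ∧ ord u = 1) (D : Subring F)
    (hfrac : ∀ x : F, ∃ a ∈ D, ∃ b ∈ D, b ≠ 0 ∧ x * b = a)
    (hD : ∀ z ∈ D, z ≠ 0 → 0 ≤ ord z) (τ σ : F) (hτ : τ ∈ D) (hτ0 : τ ≠ 0) (hσ0 : σ ≠ 0)
    (hσ : ord σ = 0) (hτpos : 0 < ord τ)
    (h : ∀ z ∈ D, z ≠ 0 → 0 < ord z → ∃ z' ∈ D, σ * z = τ * z') : ord τ = 1 := by
  have hdvd : ∀ n : ℕ, ∀ z ∈ D, z ≠ 0 → ord z = n → ord τ ∣ ord z := by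
    intro n
    induction n using Nat.strong_induction_on with
    | _ n ih =>
      intro z hz hz0 hn
      rcases Nat.eq_zero_or_pos n with rfl | hpos
      · rw [hn]; simp
      · have hzpos : 0 < ord z := by rw [hn]; exact_mod_cast hpos
        obtain ⟨z', hz', hzz'⟩ := h z hz hz0 hzpos
        have hz'0 : z' ≠ 0 := by
          rintro rfl
          rw [mul_zero] at hzz'
          exact (mul_ne_zero hσ0 hz0) hzz'
        have e1 : ord z = ord τ + ord z' := by
          have := congrArg ord hzz'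
          rw [hmul _ _ hσ0 hz0, hmul _ _ hτ0 hz'0, hσ, zero_add] at this
          exact this
        have hz'nn := hD z' hz' hz'0
        have hlt : (ord z').toNat < n := by
          have : ord z' < n := by rw [← hn, e1]; linarith
          omega
        have := ih (ord z').toNat hlt z' hz' hz'0 (Int.toNat_of_nonneg hz'nn).symm
        rw [e1]
        exact dvd_add (dvd_refl _) this
  have hdvd' : ∀ z ∈ D, z ≠ 0 → ord τ ∣ ord z := fun z hz hz0 =>
    hdvd (ord z).toNat z hz hz0 (Int.toNat_of_nonneg (hD z hz hz0)).symm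
  obtain ⟨u, hu0, hu1⟩ := hone
  obtain ⟨a, ha, b, hb, hb0, hab⟩ := hfrac u
  have ha0 : a ≠ 0 := by rw [← hab]; exact mul_ne_zero hu0 hb0
  have e2 : ord u + ord b = ord a := by rw [← hmul _ _ hu0 hb0, hab]
  have h1 : ord τ ∣ 1 := by
    have : (1 : ℤ) = ord a - ord b := by rw [← e2, hu1]; ring
    rw [this]
    exact dvd_sub (hdvd' a ha ha0) (hdvd' b hb hb0)
  exact Int.eq_one_of_dvd_one hτpos.le h1

/-- two discrete valuations centred at the same locally principal point are equal -/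
theorem lfAbs_ord_unique {F : Type*} [Field F] (ord ord' : F → ℤ)
    (hmul : ∀ x y : F, x ≠ 0 → y ≠ 0 → ord (x * y) = ord x + ord y)
    (hmul' : ∀ x y : F, x ≠ 0 → y ≠ 0 → ord' (x * y) = ord' x + ord' y) (D : Subring F)
    (hfrac : ∀ x : F, ∃ a ∈ D, ∃ b ∈ D, b ≠ 0 ∧ x * b = a)
    (hD : ∀ z ∈ D, z ≠ 0 → 0 ≤ ord z) (hD' : ∀ z ∈ D, z ≠ 0 → 0 ≤ ord' z)
    (hpos : ∀ z ∈ D, z ≠ 0 → (0 < ord z ↔ 0 < ord' z))
    (τ σ : F) (hτ0 : τ ≠ 0) (hσ0 : σ ≠ 0) (hσ : ord σ = 0) (hσ' : ord' σ = 0)
    (hτ : ord τ = 1) (hτ' : ord' τ = 1)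
    (h : ∀ z ∈ D, z ≠ 0 → 0 < ord z → ∃ z' ∈ D, σ * z = τ * z') :
    ∀ x : F, x ≠ 0 → ord x = ord' x := by
  have heq : ∀ n : ℕ, ∀ z ∈ D, z ≠ 0 → ord z = n → ord z = ord' z := by
    intro n
    induction n using Nat.strong_induction_on with
    | _ n ih =>
      intro z hz hz0 hn
      rcases Nat.eq_zero_or_pos n with rfl | hpos'
      · have h1 : ¬ 0 < ord' z := by
          rw [← hpos z hz hz0, hn]; simp
        have h2 := hD' z hz hz0
        rw [hn]
        have : ord' z = 0 := le_antisymm (not_lt.mp h1) h2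
        rw [this]; simp
      · have hzpos : 0 < ord z := by rw [hn]; exact_mod_cast hpos'
        obtain ⟨z', hz', hzz'⟩ := h z hz hz0 hzpos
        have hz'0 : z' ≠ 0 := by
          rintro rfl
          rw [mul_zero] at hzz'
          exact (mul_ne_zero hσ0 hz0) hzz'
        have e1 : ord z = 1 + ord z' := by
          have := congrArg ord hzz'
          rw [hmul _ _ hσ0 hz0, hmul _ _ hτ0 hz'0, hσ, zero_add, hτ] at this
          exact this
        have e1' : ord' z = 1 + ord' z' := by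
          have := congrArg ord' hzz'
          rw [hmul' _ _ hσ0 hz0, hmul' _ _ hτ0 hz'0, hσ', zero_add, hτ'] at this
          exact this
        have hz'nn := hD z' hz' hz'0
        have hlt : (ord z').toNat < n := by
          have : ord z' < n := by rw [← hn, e1]; linarith
          omega
        have := ih (ord z').toNat hlt z' hz' hz'0 (Int.toNat_of_nonneg hz'nn).symm
        rw [e1, e1', this]
  have heq' : ∀ z ∈ D, z ≠ 0 → ord z = ord' z := fun z hz hz0 =>
    heq (ord z).toNat z hz hz0 (Int.toNat_of_nonneg (hD z hz hz0)).symm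
  intro x hx
  obtain ⟨a, ha, b, hb, hb0, hab⟩ := hfrac x
  have ha0 : a ≠ 0 := by rw [← hab]; exact mul_ne_zero hx hb0
  have e2 : ord x + ord b = ord a := by rw [← hmul _ _ hx hb0, hab]
  have e2' : ord' x + ord' b = ord' a := by rw [← hmul' _ _ hx hb0, hab]
  have := heq' a ha ha0
  have := heq' b hb hb0
  linarith

end Abs

end Fermat.Agent.S37

end
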