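import Fermat.Agent.S18.Chart.Finite
import Fermat.Agent.S24.FFOne

/-!
# S37, block LF, task S37-LF-ChartFin (helper230)

General facts on the integral closure `S18.chart A₀ y` of `A₀[y]` in a function field `F/K₀` of
characteristic zero: finite over `A₀[y]`, noetherian, fraction field `F`.
(The first two are `S18.ChartFinite.finite_and_noeth` without the vertical hypotheses.)
-/

set_option autoImplicit false
set_option linter.style.haveILetI false

noncomputable section

namespace Fermat.Agent.S37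

open AlgebraicCurve Fermat.Agent.S24 Polynomial IntermediateField

namespace ChartFin

variable {K₀ F : Type*} [Field K₀] [Field F] [Algebra K₀ F]

/-- clearing the denominators of a polynomial (any valuation subring) -/
theorem exists_mul_coeff_mem (A₀ : ValuationSubring K₀) (p : K₀[X]) :
    ∃ c ∈ A₀, c ≠ 0 ∧ ∀ i, (C c * p).coeff i ∈ A₀ := by
  classical
  obtain ⟨b, hb⟩ := IsLocalization.exist_integer_multiples_of_finset (nonZeroDivisors A₀)
    (p.support.image p.coeff)
  refine ⟨(b : A₀), (b : A₀).2, fun h => nonZeroDivisors.ne_zero b.2 (Subtype.ext h), fun i => ?_⟩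
  rw [coeff_C_mul]
  by_cases hi : i ∈ p.support
  · obtain ⟨a, ha⟩ := hb (p.coeff i) (Finset.mem_image_of_mem _ hi)
    have : (((b : A₀) : K₀)) * p.coeff i = (a : K₀) := ha.symm
    rw [this]
    exact a.2
  · rw [notMem_support_iff.mp hi, mul_zero]
    exact A₀.zero_mem

theorem exists_frac_polyRing (A₀ : ValuationSubring K₀) (x : F) :
    ∀ y ∈ K₀⟮x⟯, ∃ a ∈ S18.polyRing A₀.toSubring x, ∃ b ∈ S18.polyRing A₀.toSubring x,
      b ≠ 0 ∧ y * b = a := by
  intro y hy
  rw [IntermediateField.mem_adjoin_simple_iff] at hy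
  obtain ⟨r, s, rfl⟩ := hy
  by_cases hs : aeval x s = 0
  · refine ⟨0, Subring.zero_mem _, 1, Subring.one_mem _, one_ne_zero, ?_⟩
    rw [hs, div_zero, zero_mul]
  · obtain ⟨c₁, hc₁, hc₁0, h₁⟩ := exists_mul_coeff_mem A₀ r
    obtain ⟨c₂, hc₂, hc₂0, h₂⟩ := exists_mul_coeff_mem A₀ s
    have hc : algebraMap K₀ F (c₁ * c₂) ≠ 0 := by
      rw [Ne, map_eq_zero]
      exact mul_ne_zero hc₁0 hc₂0
    refine ⟨aeval x (C (c₁ * c₂) * r), (S18.mem_polyRing_iff _ x _).mpr ⟨_, fun i => ?_, rfl⟩,
      aeval x (C (c₁ * c₂) * s), (S18.mem_polyRing_iff _ x _).mpr ⟨_, fun i => ?_, rfl⟩, ?_, ?_⟩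
    · have := A₀.mul_mem _ _ hc₂ (h₁ i)
      rw [coeff_C_mul] at this ⊢
      have e : c₁ * c₂ * r.coeff i = c₂ * (c₁ * r.coeff i) := by ring
      rw [e]
      exact this
    · have := A₀.mul_mem _ _ hc₁ (h₂ i)
      rw [coeff_C_mul] at this ⊢
      have e : c₁ * c₂ * s.coeff i = c₁ * (c₂ * s.coeff i) := by ring
      rw [e]
      exact this
    · rw [map_mul (aeval x), aeval_C]
      exact mul_ne_zero hc hs
    · rw [map_mul (aeval x), map_mul (aeval x), aeval_C]
      field_simp

/-- The chart is a finite module over `A₀[x]` (elementwise form) and noetherian. -/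
theorem finite_and_noeth [CharZero K₀] {A₀ : ValuationSubring K₀} {ϖ₀ : K₀} {x : F}
    (h₀ : S18.IsUnif A₀ ϖ₀) (htr : Transcendental K₀ x) (hfin : FiniteDimensional K₀⟮x⟯ F) :
    (∃ S : Finset F, (∀ e ∈ S, e ∈ S18.chart A₀.toSubring x) ∧
      ∀ b ∈ S18.chart A₀.toSubring x,
        b ∈ Submodule.span (S18.polyRing A₀.toSubring x) (S : Set F)) ∧
    IsNoetherianRing (S18.chart A₀.toSubring x) := by
  classical
  haveI : CharZero F := charZero_of_injective_algebraMap (algebraMap K₀ F).injective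
  set E : IntermediateField K₀ F := K₀⟮x⟯ with hE
  set A : Subring F := S18.polyRing A₀.toSubring x with hA
  set B : Subring F := S18.chart A₀.toSubring x with hB
  have hAB : A ≤ B := S18.polyRing_le_chart _ _
  have hAE : ∀ y ∈ A, y ∈ E := S18.mem_of_mem_polyRing rfl _
  letI iAB : Algebra A B := (Subring.inclusion hAB).toAlgebra
  letI iAE : Algebra A E := (RingHom.codRestrict A.subtype E (fun y => hAE y y.2)).toAlgebra
  haveI : IsScalarTower A B F := IsScalarTower.of_algebraMap_eq (fun _ => rfl)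
  haveI : IsScalarTower A E F := IsScalarTower.of_algebraMap_eq (fun _ => rfl)
  have injAE : Function.Injective (algebraMap A E) := fun a b h =>
    Subtype.ext (congrArg (fun e : E => (e : F)) h)
  haveI : CharZero E := ⟨fun a b h => Nat.cast_injective (R := F) (by
    have h1 := congrArg (algebraMap E F) h
    rwa [map_natCast, map_natCast] at h1)⟩
  haveI : Algebra.IsSeparable E F := inferInstance
  haveI : IsFractionRing A E := S18.Nor.isFractionRing_of_exists injAE (fun y => by
    obtain ⟨a, ha, b, hb, hb0, e⟩ := exists_frac_polyRing A₀ x y y.2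
    exact ⟨⟨a, ha⟩, ⟨b, hb⟩, fun h => hb0 (congrArg Subtype.val h), Subtype.ext e⟩)
  haveI : IsIntegrallyClosed A := S18.ChartFinite.isIntegrallyClosed_polyRing' htr
  haveI : IsNoetherianRing A := S18.ChartFinite.isNoetherianRing_polyRing' h₀ htr
  haveI : IsIntegralClosure B A F :=
    ⟨Subtype.val_injective, fun {z} => ⟨fun h => ⟨⟨z, h⟩, rfl⟩, by
      rintro ⟨b, rfl⟩
      exact b.2⟩⟩
  haveI hfin : Module.Finite A B := IsIntegralClosure.finite A E F B
  refine ⟨?_, IsNoetherianRing.of_finite A B⟩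
  obtain ⟨s, hs⟩ := hfin.fg_top
  refine ⟨s.image Subtype.val, ?_, fun b hb => ?_⟩
  · intro e he
    obtain ⟨e', -, rfl⟩ := Finset.mem_image.mp he
    exact e'.2
  · have hmem : (⟨b, hb⟩ : B) ∈ Submodule.span A (s : Set B) := hs ▸ Submodule.mem_top
    have key : ∀ z : B, z ∈ Submodule.span A (s : Set B) →
        (z : F) ∈ Submodule.span A ((s.image Subtype.val : Finset F) : Set F) := by
      intro z hz
      induction hz using Submodule.span_induction with
      | mem e he => exact Submodule.subset_span (by simpa using he)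
      | zero => exact Submodule.zero_mem _
      | add a b _ _ ha hb => exact Submodule.add_mem _ ha hb
      | smul r z _ hz => exact Submodule.smul_mem _ r hz
    exact key _ hmem

/-- every element of `F` is algebraic over `A₀[x]`. -/
theorem isAlgebraic_polyRing (A₀ : ValuationSubring K₀) {x : F}
    (hfin : FiniteDimensional K₀⟮x⟯ F) (z : F) :
    IsAlgebraic (S18.polyRing A₀.toSubring x) z := by
  set E : IntermediateField K₀ F := K₀⟮x⟯ with hE
  set A : Subring F := S18.polyRing A₀.toSubring x with hA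
  have hAE : ∀ y ∈ A, y ∈ E := S18.mem_of_mem_polyRing rfl _
  letI iAE : Algebra A E := (RingHom.codRestrict A.subtype E (fun y => hAE y y.2)).toAlgebra
  haveI : IsScalarTower A E F := IsScalarTower.of_algebraMap_eq (fun _ => rfl)
  have injAE : Function.Injective (algebraMap A E) := fun a b h =>
    Subtype.ext (congrArg (fun e : E => (e : F)) h)
  haveI : IsFractionRing A E := S18.Nor.isFractionRing_of_exists injAE (fun y => by
    obtain ⟨a, ha, b, hb, hb0, e⟩ := exists_frac_polyRing A₀ x y y.2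
    exact ⟨⟨a, ha⟩, ⟨b, hb⟩, fun h => hb0 (congrArg Subtype.val h), Subtype.ext e⟩)
  rw [IsFractionRing.isAlgebraic_iff A E F]
  exact Algebra.IsAlgebraic.isAlgebraic z

end ChartFin

section ChartFin

variable {K₀ F : Type*} [Field K₀] [CharZero K₀] [Field F] [Algebra K₀ F] [FF.IsFF1 K₀ F]
  (A₀ : ValuationSubring K₀) (ϖ₀ : K₀) (h₀ : S18.IsUnif A₀ ϖ₀) (y : F) (hy : Transcendental K₀ y)

include h₀ hy in
/-- finitely many module generators over `A₀[y]` -/
theorem chart_finite : ∃ S : Finset F, (∀ e ∈ S, e ∈ S18.chart A₀.toSubring y) ∧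
    ∀ b ∈ S18.chart A₀.toSubring y, ∃ c : F → Polynomial K₀, (∀ e i, (c e).coeff i ∈ A₀) ∧
      b = ∑ e ∈ S, Polynomial.aeval y (c e) * e := by
  obtain ⟨⟨S, hS, hspan⟩, -⟩ := ChartFin.finite_and_noeth h₀ hy (FF.IsFF1.finite y hy)
  refine ⟨S, hS, fun b hb => ?_⟩
  obtain ⟨f, -, hf⟩ := Submodule.mem_span_finset.mp (hspan b hb)
  have hp : ∀ e : F, ∃ p : K₀[X], (∀ i, p.coeff i ∈ A₀.toSubring) ∧ aeval y p = (f e : F) :=
    fun e => (S18.mem_polyRing_iff _ y _).mp (f e).2
  choose c hc hce using hp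
  refine ⟨c, hc, ?_⟩
  rw [← hf]
  refine Finset.sum_congr rfl fun e _ => ?_
  rw [hce]
  rfl

include h₀ hy in
theorem chart_noetherian : IsNoetherianRing (S18.chart A₀.toSubring y) :=
  (ChartFin.finite_and_noeth h₀ hy (FF.IsFF1.finite y hy)).2

include hy in
theorem chart_frac (x : F) : ∃ a ∈ S18.chart A₀.toSubring y, ∃ b ∈ S18.chart A₀.toSubring y,
    b ≠ 0 ∧ x * b = a := by
  obtain ⟨b, hb0, hab⟩ := IsAlgebraic.exists_integral_multiple
    (ChartFin.isAlgebraic_polyRing A₀ (FF.IsFF1.finite y hy) x)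
  refine ⟨b • x, hab, (b : F), S18.polyRing_le_chart _ _ b.2,
    fun h => hb0 (Subtype.ext h), ?_⟩
  rw [Subring.smul_def, smul_eq_mul, mul_comm]

end ChartFin

end Fermat.Agent.S37
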