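import Mathlib
import Fermat.Agent.S18.Abs.LocalReg

/-!
# S37, block LF: choice of a regular parameter (task S37-LF-Param)

* `exists_param`: a regular parameter at `𝔫` can be chosen outside finitely many other maximal
  ideals (Chinese remainder theorem + Nakayama in the localisation at `𝔫`).
* `finite_maximal_over`: finitely many maximal ideals over a maximal ideal in a finite extension.
-/

set_option autoImplicit false

namespace Fermat.Agent.S37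

open IsLocalRing

/-- an element of `𝔫 ^ 2` which is `≡ 1` modulo finitely many other maximal ideals -/
private theorem exists_sq_sub_one {C : Type*} [CommRing C] (𝔫 : Ideal C) (h𝔫 : 𝔫.IsMaximal)
    (T : Finset (Ideal C)) (hT : ∀ 𝔭 ∈ T, 𝔭.IsMaximal ∧ 𝔭 ≠ 𝔫) :
    ∃ e ∈ 𝔫 ^ 2, ∀ 𝔭 ∈ T, e - 1 ∈ 𝔭 := by
  have h1 : 𝔫 ^ 2 ⊔ ⨅ 𝔭 ∈ T, (𝔭 : Ideal C) = ⊤ := by
    refine Ideal.sup_iInf_eq_top fun 𝔭 h𝔭 => ?_
    exact Ideal.pow_sup_eq_top (h𝔫.coprime_of_ne (hT 𝔭 h𝔭).1 (hT 𝔭 h𝔭).2.symm)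
  have h2 : (1 : C) ∈ 𝔫 ^ 2 ⊔ ⨅ 𝔭 ∈ T, (𝔭 : Ideal C) := h1 ▸ Submodule.mem_top
  obtain ⟨e, he, f, hf, hef⟩ := Submodule.mem_sup.1 h2
  refine ⟨e, he, fun 𝔭 h𝔭 => ?_⟩
  have hf' : f ∈ 𝔭 := by
    have := (Submodule.mem_iInf _).1 hf 𝔭
    exact (Submodule.mem_iInf _).1 this h𝔭
  have : e - 1 = -f := by rw [← hef]; ring
  rw [this]
  exact 𝔭.neg_mem hf'

/-- choice of a regular parameter avoiding finitely many other maximal ideals -/
theorem exists_param {C : Type*} [CommRing C] [IsNoetherianRing C] (π : C) (𝔫 : Ideal C)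
    (h𝔫 : 𝔫.IsMaximal) (hreg : S18.Abs.RegAt π 𝔫)
    (T : Finset (Ideal C)) (hT : ∀ 𝔭 ∈ T, 𝔭.IsMaximal ∧ 𝔭 ≠ 𝔫) :
    ∃ t ∈ 𝔫, (∀ y ∈ 𝔫, ∃ s, s ∉ 𝔫 ∧ s * y ∈ Ideal.span {π, t}) ∧ ∀ 𝔭 ∈ T, t ∉ 𝔭 := by
  obtain ⟨t₁, ht₁, h₁⟩ := hreg
  obtain ⟨e, he, heT⟩ := exists_sq_sub_one 𝔫 h𝔫 T hT
  haveI : 𝔫.IsPrime := h𝔫.isPrime
  have he𝔫 : e ∈ 𝔫 := Ideal.pow_le_self two_ne_zero he
  set t : C := t₁ + e * (1 - t₁) with ht
  have htd : t - t₁ ∈ 𝔫 ^ 2 := by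
    have : t - t₁ = e * (1 - t₁) := by rw [ht]; ring
    rw [this]
    exact Ideal.mul_mem_right _ _ he
  have ht𝔫 : t ∈ 𝔫 := 𝔫.add_mem ht₁ (𝔫.mul_mem_right _ he𝔫)
  refine ⟨t, ht𝔫, ?_, ?_⟩
  · -- Nakayama in the localisation
    let R := Localization.AtPrime 𝔫
    let f : C →+* R := algebraMap C R
    haveI : IsNoetherianRing R := IsLocalization.isNoetherianRing 𝔫.primeCompl R inferInstance
    set J : Ideal C := Ideal.span {π, t} with hJ
    have hmax : Ideal.map f 𝔫 = maximalIdeal R := Localization.AtPrime.map_eq_maximalIdeal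
    have hle : maximalIdeal R ≤ Ideal.map f J ⊔ maximalIdeal R • maximalIdeal R := by
      rw [← hmax, Ideal.map_le_iff_le_comap]
      intro y hy
      rw [Ideal.mem_comap]
      obtain ⟨s, hs, hsy⟩ := h₁ y hy
      obtain ⟨a, b, hab⟩ := Ideal.mem_span_pair.1 hsy
      have hunit : IsUnit (f s) := IsLocalization.map_units R (⟨s, hs⟩ : 𝔫.primeCompl)
      rw [← Ideal.unit_mul_mem_iff_mem _ hunit, ← map_mul, ← hab]
      have hsplit : a * π + b * t₁ = (a * π + b * t) - b * (t - t₁) := by ring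
      rw [hsplit, map_sub]
      refine Ideal.sub_mem _ (Ideal.mem_sup_left (Ideal.mem_map_of_mem f ?_))
        (Ideal.mem_sup_right ?_)
      · exact Ideal.mem_span_pair.2 ⟨a, b, rfl⟩
      · have h2 : f (b * (t - t₁)) ∈ Ideal.map f (𝔫 ^ 2) :=
          Ideal.mem_map_of_mem f (Ideal.mul_mem_left _ _ htd)
        rwa [Ideal.map_pow, pow_two, ← smul_eq_mul] at h2
    have hnak : maximalIdeal R ≤ Ideal.map f J :=
      Submodule.le_of_le_smul_of_le_jacobson_bot (IsNoetherian.noetherian _)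
        (IsLocalRing.maximalIdeal_le_jacobson _) hle
    intro y hy
    have hy' : f y ∈ Ideal.map f J := hnak (hmax ▸ Ideal.mem_map_of_mem f hy)
    obtain ⟨⟨⟨i, hi⟩, s'⟩, hx⟩ := (IsLocalization.mem_map_algebraMap_iff 𝔫.primeCompl R).1 hy'
    have hx' : f (y * s') = f i := by rw [map_mul]; exact hx
    obtain ⟨c, hc⟩ := (IsLocalization.eq_iff_exists 𝔫.primeCompl R).1 hx'
    refine ⟨c * s', fun hmem => ?_, ?_⟩
    · rcases (inferInstance : 𝔫.IsPrime).mem_or_mem hmem with h | h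
      · exact c.2 h
      · exact s'.2 h
    · have : (c : C) * s' * y = c * i := by rw [← hc]; ring
      rw [this]
      exact Ideal.mul_mem_left _ _ hi
  · intro 𝔭 h𝔭 htp
    have h1 : t - 1 = (e - 1) * (1 - t₁) := by rw [ht]; ring
    have h2 : t - 1 ∈ 𝔭 := h1 ▸ 𝔭.mul_mem_right _ (heT 𝔭 h𝔭)
    have h3 : (1 : C) ∈ 𝔭 := by
      have := 𝔭.sub_mem htp h2
      simpa using this
    exact (hT 𝔭 h𝔭).1.ne_top ((Ideal.eq_top_iff_one _).2 h3)

/-- finitely many maximal ideals over a maximal ideal in a finite extension -/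
theorem finite_maximal_over {R C : Type*} [CommRing R] [CommRing C] [Algebra R C]
    [Module.Finite R C] (𝔪 : Ideal R) (h𝔪 : 𝔪.IsMaximal) :
    {𝔭 : Ideal C | 𝔭.IsMaximal ∧ 𝔪.map (algebraMap R C) ≤ 𝔭}.Finite := by
  refine (Algebra.QuasiFinite.finite_primesOver (S := C) 𝔪).subset ?_
  rintro 𝔭 ⟨h𝔭, hle⟩
  refine ⟨h𝔭.isPrime, ⟨?_⟩⟩
  have h1 : 𝔪 ≤ Ideal.comap (algebraMap R C) 𝔭 := Ideal.map_le_iff_le_comap.1 hle
  have h2 : Ideal.comap (algebraMap R C) 𝔭 ≠ ⊤ := by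
    haveI := h𝔭.isPrime
    exact (Ideal.comap_isPrime (algebraMap R C) 𝔭).ne_top
  exact h𝔪.eq_of_le h2 h1

end Fermat.Agent.S37
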