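import Fermat.Agent.S37.LF.Defs
import Fermat.Agent.S18.Chart.Const

/-!
# S37, block LF, task S37-LF-Transfer: two normal charts with the same local ring

`Transfer.locF C 𝔫` is the localisation of the subring `C` of the field `F` at the prime `𝔫`,
realised inside `F`; `Transfer.locMax C 𝔫` is its maximal ideal.
-/

set_option autoImplicit false

noncomputable section

namespace Fermat.Agent.S37

namespace Transfer

open Polynomial

variable {F : Type*} [Field F]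

/-! ### localisation inside `F` -/

/-- the localisation of `C` at the prime `𝔫`, inside `F` -/
def locF (C : Subring F) (𝔫 : Ideal C) [h : 𝔫.IsPrime] : Subring F where
  carrier := {x | ∃ p q : C, q ∉ 𝔫 ∧ x * (q : F) = p}
  mul_mem' := by
    rintro x x' ⟨p, q, hq, hx⟩ ⟨p', q', hq', hx'⟩
    refine ⟨p * p', q * q', fun hm => (h.mem_or_mem hm).elim hq hq', ?_⟩
    push_cast
    rw [← hx, ← hx']
    ring
  one_mem' := ⟨1, 1, (Ideal.ne_top_iff_one 𝔫).1 h.ne_top, by simp⟩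
  add_mem' := by
    rintro x x' ⟨p, q, hq, hx⟩ ⟨p', q', hq', hx'⟩
    refine ⟨p * q' + p' * q, q * q', fun hm => (h.mem_or_mem hm).elim hq hq', ?_⟩
    push_cast
    rw [← hx, ← hx']
    ring
  zero_mem' := ⟨0, 1, (Ideal.ne_top_iff_one 𝔫).1 h.ne_top, by simp⟩
  neg_mem' := by
    rintro x ⟨p, q, hq, hx⟩
    refine ⟨-p, q, hq, ?_⟩
    push_cast
    rw [← hx]
    ring

/-- the maximal ideal of `locF C 𝔫` -/
def locMax (C : Subring F) (𝔫 : Ideal C) : Set F :=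
  {x | ∃ p q : C, p ∈ 𝔫 ∧ q ∉ 𝔫 ∧ x * (q : F) = p}

variable {C : Subring F} {𝔫 : Ideal C} [h𝔫 : 𝔫.IsPrime]

theorem mem_locF {x : F} : x ∈ locF C 𝔫 ↔ ∃ p q : C, q ∉ 𝔫 ∧ x * (q : F) = p := Iff.rfl

theorem one_notMem : (1 : C) ∉ 𝔫 := (Ideal.ne_top_iff_one 𝔫).1 h𝔫.ne_top

theorem le_locF : C ≤ locF C 𝔫 := fun x hx => ⟨⟨x, hx⟩, 1, one_notMem, by simp⟩

theorem locMax_subset : locMax C 𝔫 ⊆ locF C 𝔫 := fun _ ⟨p, q, _, hq, hx⟩ => ⟨p, q, hq, hx⟩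

theorem locMax_add {x x' : F} (hx : x ∈ locMax C 𝔫) (hx' : x' ∈ locMax C 𝔫) :
    x + x' ∈ locMax C 𝔫 := by
  obtain ⟨p, q, hp, hq, hx⟩ := hx
  obtain ⟨p', q', hp', hq', hx'⟩ := hx'
  refine ⟨p * q' + p' * q, q * q',
    𝔫.add_mem (𝔫.mul_mem_right _ hp) (𝔫.mul_mem_right _ hp'),
    fun hm => (h𝔫.mem_or_mem hm).elim hq hq', ?_⟩
  push_cast
  rw [← hx, ← hx']
  ring

theorem locMax_mul {r x : F} (hr : r ∈ locF C 𝔫) (hx : x ∈ locMax C 𝔫) :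
    r * x ∈ locMax C 𝔫 := by
  obtain ⟨p, q, hq, hr⟩ := hr
  obtain ⟨p', q', hp', hq', hx'⟩ := hx
  refine ⟨p * p', q * q', 𝔫.mul_mem_left _ hp', fun hm => (h𝔫.mem_or_mem hm).elim hq hq', ?_⟩
  push_cast
  rw [← hr, ← hx']
  ring

theorem locMax_neg {x : F} (hx : x ∈ locMax C 𝔫) : -x ∈ locMax C 𝔫 := by
  have := locMax_mul (C := C) (𝔫 := 𝔫) (neg_mem (one_mem (locF C 𝔫))) hx
  simpa using this

theorem locMax_sub {x x' : F} (hx : x ∈ locMax C 𝔫) (hx' : x' ∈ locMax C 𝔫) :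
    x - x' ∈ locMax C 𝔫 := by
  rw [sub_eq_add_neg]
  exact locMax_add hx (locMax_neg hx')

theorem coe_mem_locMax_iff (c : C) : (c : F) ∈ locMax C 𝔫 ↔ c ∈ 𝔫 := by
  constructor
  · rintro ⟨p, q, hp, hq, hx⟩
    have : c * q = p := Subtype.ext (by push_cast; exact hx)
    exact (h𝔫.mem_or_mem (this ▸ hp)).resolve_right hq
  · intro hc
    exact ⟨c, 1, hc, one_notMem, by simp⟩

theorem one_notMem_locMax : (1 : F) ∉ locMax C 𝔫 := by
  intro h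
  exact one_notMem (𝔫 := 𝔫) ((coe_mem_locMax_iff (1 : C)).1 (by simpa using h))

theorem inv_mem_locF {x : F} (hx : x ∈ locF C 𝔫) (hx' : x ∉ locMax C 𝔫) : x⁻¹ ∈ locF C 𝔫 := by
  obtain ⟨p, q, hq, hxq⟩ := hx
  have hp : p ∉ 𝔫 := fun hp => hx' ⟨p, q, hp, hq, hxq⟩
  have hp0 : (p : F) ≠ 0 := by
    intro h0
    apply hp
    have : p = 0 := Subtype.ext h0
    rw [this]
    exact 𝔫.zero_mem
  have hx0 : x ≠ 0 := by
    rintro rfl
    rw [zero_mul] at hxq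
    exact hp0 hxq.symm
  refine ⟨q, p, hp, ?_⟩
  rw [← hxq, ← mul_assoc, inv_mul_cancel₀ hx0, one_mul]

/-! ### integrality in coefficient form -/

/-- `x` is a root of a monic polynomial with coefficients in `S` -/
def IntOver (S : Subring F) (x : F) : Prop :=
  ∃ p : F[X], p.Monic ∧ (∀ i, p.coeff i ∈ S) ∧ p.eval x = 0

theorem IntOver.mono {S S' : Subring F} (h : S ≤ S') {x : F} (hx : IntOver S x) : IntOver S' x := by
  obtain ⟨p, hp, hc, h0⟩ := hx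
  exact ⟨p, hp, fun i => h (hc i), h0⟩

theorem isIntegral_iff_intOver (S : Subring F) (x : F) : IsIntegral S x ↔ IntOver S x := by
  constructor
  · rintro ⟨p, hp, h0⟩
    refine ⟨p.map (algebraMap S F), hp.map _, fun i => ?_, ?_⟩
    · rw [coeff_map]
      exact (p.coeff i).2
    · rw [eval_map]
      exact h0
  · rintro ⟨p, hp, hc, h0⟩
    have hl : p ∈ Polynomial.lifts (algebraMap S F) := by
      rw [Polynomial.lifts_iff_coeff_lifts]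
      intro i
      exact ⟨⟨_, hc i⟩, rfl⟩
    obtain ⟨q, hq, -, hqm⟩ := Polynomial.lifts_and_natDegree_eq_and_monic hl hp
    refine ⟨q, hqm, ?_⟩
    rw [← eval_map, hq]
    exact h0

/-- common denominators -/
theorem exists_common_denom (s : Finset ℕ) (f : ℕ → F) (hf : ∀ i ∈ s, f i ∈ locF C 𝔫) :
    ∃ q : C, q ∉ 𝔫 ∧ ∀ i ∈ s, f i * (q : F) ∈ C := by
  classical
  induction s using Finset.induction_on with
  | empty => exact ⟨1, one_notMem, by simp⟩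
  | insert a s ha ih =>
    obtain ⟨q, hq, hqs⟩ := ih fun i hi => hf i (Finset.mem_insert_of_mem hi)
    obtain ⟨p', q', hq', hx'⟩ := hf a (Finset.mem_insert_self a s)
    refine ⟨q * q', fun hm => (h𝔫.mem_or_mem hm).elim hq hq', ?_⟩
    intro i hi
    push_cast
    rcases Finset.mem_insert.1 hi with rfl | hi
    · have : f i * ((q : F) * q') = (f i * q') * q := by ring
      rw [this, hx']
      exact mul_mem p'.2 q.2
    · rw [← mul_assoc]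
      exact mul_mem (hqs i hi) q'.2

/-- the localisation of a ring which is integrally closed in `F` is integrally closed in `F` -/
theorem mem_locF_of_intOver (hC : ∀ z : F, IntOver C z → z ∈ C) {x : F}
    (hx : IntOver (locF C 𝔫) x) : x ∈ locF C 𝔫 := by
  obtain ⟨p, hp, hc, h0⟩ := hx
  obtain ⟨q, hq, hqs⟩ := exists_common_denom (C := C) (𝔫 := 𝔫) (Finset.range p.natDegree)
    p.coeff (fun i _ => hc i)
  have hz : IntOver C ((q : F) * x) := by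
    refine ⟨p.scaleRoots (q : F), (monic_scaleRoots_iff _).2 hp, fun i => ?_, ?_⟩
    · rw [coeff_scaleRoots]
      rcases lt_trichotomy i p.natDegree with hi | hi | hi
      · obtain ⟨k, hk⟩ : ∃ k, p.natDegree - i = k + 1 := ⟨p.natDegree - i - 1, by omega⟩
        rw [hk, pow_succ', ← mul_assoc]
        exact mul_mem (hqs i (Finset.mem_range.2 hi)) (pow_mem q.2 k)
      · rw [hi, hp.coeff_natDegree]
        simp
      · rw [coeff_eq_zero_of_natDegree_lt hi]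
        simp
    · have := scaleRoots_eval₂_eq_zero (RingHom.id F) (p := p) (r := x) (s := (q : F))
        (by rwa [eval₂_id])
      rwa [eval₂_id, RingHom.id_apply] at this
  exact ⟨⟨_, hC _ hz⟩, q, hq, mul_comm _ _⟩

/-! ### regularity in terms of the local ring -/

/-- the maximal ideal `M` of the local ring `R` is generated by `ϖ` and one more element -/
def RegLoc (R : Subring F) (M : Set F) (ϖ : F) : Prop :=
  ∃ t ∈ M, ∀ z ∈ M, ∃ α ∈ R, ∃ β ∈ R, z = ϖ * α + t * β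

theorem coe_ne_zero_of_notMem {q : C} (hq : q ∉ 𝔫) : (q : F) ≠ 0 := by
  intro h0
  apply hq
  have : q = 0 := Subtype.ext h0
  rw [this]
  exact 𝔫.zero_mem

theorem regLoc_of_regAt (ϖB : C) (h : S18.Abs.RegAt ϖB 𝔫) :
    RegLoc (locF C 𝔫) (locMax C 𝔫) (ϖB : F) := by
  obtain ⟨t, ht, hreg⟩ := h
  refine ⟨t, (coe_mem_locMax_iff t).2 ht, ?_⟩
  rintro z ⟨p, q, hp, hq, hz⟩
  obtain ⟨s, hs, hsp⟩ := hreg p hp
  obtain ⟨α, β, hαβ⟩ := Ideal.mem_span_pair.1 hsp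
  have hsq : s * q ∉ 𝔫 := fun hm => (h𝔫.mem_or_mem hm).elim hs hq
  have hsq0 : ((s * q : C) : F) ≠ 0 := coe_ne_zero_of_notMem hsq
  have hαβ' : (α : F) * ϖB + β * t = s * p := by
    have := congrArg (Subtype.val) hαβ
    simpa using this
  refine ⟨α / ((s * q : C) : F), ⟨α, s * q, hsq, div_mul_cancel₀ _ hsq0⟩,
    β / ((s * q : C) : F), ⟨β, s * q, hsq, div_mul_cancel₀ _ hsq0⟩, ?_⟩
  have h1 : z * ((s * q : C) : F) = (α : F) * ϖB + β * t := by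
    rw [hαβ', ← hz]
    push_cast
    ring
  have h2 : z = ((α : F) * ϖB + β * t) / ((s * q : C) : F) := by
    rw [← h1, mul_div_cancel_right₀ _ hsq0]
  rw [h2]
  ring

theorem regAt_of_regLoc (ϖB : C) (h : RegLoc (locF C 𝔫) (locMax C 𝔫) (ϖB : F)) :
    S18.Abs.RegAt ϖB 𝔫 := by
  obtain ⟨t, ⟨p₀, q₀, hp₀, hq₀, ht⟩, hreg⟩ := h
  refine ⟨p₀, hp₀, fun z hz => ?_⟩
  obtain ⟨α, ⟨α₁, α₂, hα₂, hα⟩, β, ⟨β₁, β₂, hβ₂, hβ⟩, hzz⟩ :=
    hreg z ((coe_mem_locMax_iff z).2 hz)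
  refine ⟨α₂ * β₂ * q₀, fun hm => ?_,
    Ideal.mem_span_pair.2 ⟨α₁ * β₂ * q₀, β₁ * α₂, Subtype.ext ?_⟩⟩
  · rcases h𝔫.mem_or_mem hm with h1 | h1
    · exact (h𝔫.mem_or_mem h1).elim hα₂ hβ₂
    · exact hq₀ h1
  · push_cast
    rw [hzz, ← hα, ← hβ, ← ht]
    ring

/-! ### comparison of two localisations -/

theorem locF_le_of {C₁ C₂ : Subring F} (𝔫₁ : Ideal C₁) [𝔫₁.IsPrime] (𝔫₂ : Ideal C₂) [𝔫₂.IsPrime]
    (hC : C₁ ≤ locF C₂ 𝔫₂) (h : ∀ x : C₁, x ∈ 𝔫₁ ↔ (x : F) ∈ locMax C₂ 𝔫₂) :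
    locF C₁ 𝔫₁ ≤ locF C₂ 𝔫₂ ∧ locMax C₁ 𝔫₁ ⊆ locMax C₂ 𝔫₂ := by
  have key : ∀ (x : F) (p q : C₁), q ∉ 𝔫₁ → x * (q : F) = p →
      (q : F)⁻¹ ∈ locF C₂ 𝔫₂ ∧ x = (q : F)⁻¹ * p := by
    intro x p q hq hx
    refine ⟨inv_mem_locF (hC q.2) (fun hm => hq ((h q).2 hm)), ?_⟩
    rw [← hx, mul_comm x, ← mul_assoc, inv_mul_cancel₀ (coe_ne_zero_of_notMem hq), one_mul]
  constructor
  · rintro x ⟨p, q, hq, hx⟩
    obtain ⟨h1, h2⟩ := key x p q hq hx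
    rw [h2]
    exact mul_mem h1 (hC p.2)
  · rintro x ⟨p, q, hp, hq, hx⟩
    obtain ⟨h1, h2⟩ := key x p q hq hx
    rw [h2]
    exact locMax_mul h1 ((h p).1 hp)

theorem zero_mem_locMax : (0 : F) ∈ locMax C 𝔫 := ⟨0, 1, 𝔫.zero_mem, one_notMem, by simp⟩

theorem locF_eq_of {C₁ C₂ : Subring F} (𝔫₁ : Ideal C₁) [𝔫₁.IsPrime] (𝔫₂ : Ideal C₂) [𝔫₂.IsPrime]
    (hC : C₁ ≤ locF C₂ 𝔫₂) (h : ∀ x : C₁, x ∈ 𝔫₁ ↔ (x : F) ∈ locMax C₂ 𝔫₂)
    (hC' : C₂ ≤ locF C₁ 𝔫₁) :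
    locF C₁ 𝔫₁ = locF C₂ 𝔫₂ ∧ locMax C₁ 𝔫₁ = locMax C₂ 𝔫₂ := by
  obtain ⟨h1, h2⟩ := locF_le_of 𝔫₁ 𝔫₂ hC h
  have h' : ∀ x : C₂, x ∈ 𝔫₂ ↔ (x : F) ∈ locMax C₁ 𝔫₁ := by
    intro x
    constructor
    · intro hx
      by_contra hcon
      have hinv := h1 (inv_mem_locF (hC' x.2) hcon)
      have hx0 : (x : F) ≠ 0 := by
        intro h0
        rw [h0] at hcon
        exact hcon zero_mem_locMax
      have := locMax_mul hinv ((coe_mem_locMax_iff x).2 hx)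
      rw [inv_mul_cancel₀ hx0] at this
      exact one_notMem_locMax this
    · intro hx
      exact (coe_mem_locMax_iff x).1 (h2 hx)
  obtain ⟨h3, h4⟩ := locF_le_of 𝔫₂ 𝔫₁ hC' h'
  exact ⟨le_antisymm h1 h3, Set.Subset.antisymm h2 h4⟩

/-! ### the contracted ideal is maximal -/

/-- the contraction of the maximal ideal of `locF C₂ 𝔫₂` to a subring `C₁` -/
def pullIdeal {C₂ : Subring F} (𝔫₂ : Ideal C₂) [𝔫₂.IsPrime] (C₁ : Subring F)
    (hC₁ : C₁ ≤ locF C₂ 𝔫₂) : Ideal C₁ where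
  carrier := {x | (x : F) ∈ locMax C₂ 𝔫₂}
  add_mem' := fun {a b} ha hb => by
    show ((a + b : C₁) : F) ∈ locMax C₂ 𝔫₂
    push_cast
    exact locMax_add ha hb
  zero_mem' := zero_mem_locMax
  smul_mem' := fun c x hx => by
    show ((c * x : C₁) : F) ∈ locMax C₂ 𝔫₂
    push_cast
    exact locMax_mul (hC₁ c.2) hx

theorem mem_pullIdeal {C₂ : Subring F} (𝔫₂ : Ideal C₂) [𝔫₂.IsPrime] (C₁ : Subring F)
    (hC₁ : C₁ ≤ locF C₂ 𝔫₂) (x : C₁) :
    x ∈ pullIdeal 𝔫₂ C₁ hC₁ ↔ (x : F) ∈ locMax C₂ 𝔫₂ := Iff.rfl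

theorem eval_mem_of_coeff_mem (S : Subring F) (G : F[X]) (hG : ∀ i, G.coeff i ∈ S) {x : F}
    (hx : x ∈ S) : G.eval x ∈ S := by
  rw [eval_eq_sum_range]
  exact sum_mem fun i _ => mul_mem (hG i) (pow_mem hx i)

theorem locMax_sum {ι : Type*} (s : Finset ι) (f : ι → F) (hf : ∀ i ∈ s, f i ∈ locMax C 𝔫) :
    ∑ i ∈ s, f i ∈ locMax C 𝔫 := by
  classical
  induction s using Finset.induction_on with
  | empty => simpa using zero_mem_locMax
  | insert a s ha ih =>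
    rw [Finset.sum_insert ha]
    exact locMax_add (hf a (Finset.mem_insert_self a s))
      (ih fun i hi => hf i (Finset.mem_insert_of_mem hi))

theorem pow_sub_pow_mem {r z : F} (hr : r ∈ locF C 𝔫) (hz : z ∈ locF C 𝔫)
    (hrz : r - z ∈ locMax C 𝔫) (i : ℕ) : r ^ i - z ^ i ∈ locMax C 𝔫 := by
  induction i with
  | zero => simpa using zero_mem_locMax
  | succ i ih =>
    have : r ^ (i + 1) - z ^ (i + 1) = r ^ i * (r - z) + z * (r ^ i - z ^ i) := by ring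
    rw [this]
    exact locMax_add (locMax_mul (pow_mem hr i) hrz) (locMax_mul hz ih)

theorem eval_sub_eval_mem (G : F[X]) (hG : ∀ i, G.coeff i ∈ locF C 𝔫) {r z : F}
    (hr : r ∈ locF C 𝔫) (hz : z ∈ locF C 𝔫) (hrz : r - z ∈ locMax C 𝔫) :
    G.eval r - G.eval z ∈ locMax C 𝔫 := by
  rw [eval_eq_sum_range, eval_eq_sum_range, ← Finset.sum_sub_distrib]
  refine locMax_sum _ _ fun i _ => ?_
  rw [← mul_sub]
  exact locMax_mul (hG i) (pow_sub_pow_mem hr hz hrz i)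

theorem exists_inv_mod {C₂ : Subring F} (𝔫₂ : Ideal C₂) [𝔫₂.IsPrime] (hmax : 𝔫₂.IsMaximal)
    (A C₁ : Subring F) (hA : A ≤ C₁) (hC₁ : C₁ ≤ locF C₂ 𝔫₂)
    (hfin : ∀ z : C₂, ∃ P : F[X], P.Monic ∧ (∀ i, P.coeff i ∈ A) ∧
      P.eval (z : F) ∈ locMax C₂ 𝔫₂)
    {x : F} (hx : x ∈ C₁) (hx' : x ∉ locMax C₂ 𝔫₂) :
    ∃ x' ∈ C₁, x * x' - 1 ∈ locMax C₂ 𝔫₂ := by
  have hxR := hC₁ hx
  have hinv := inv_mem_locF hxR hx'
  obtain ⟨p, q, hq, hpq⟩ := id hinv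
  obtain ⟨q', i, hi, hqi⟩ := hmax.exists_inv hq
  have hqi' : (q' : F) * q + i = 1 := by
    have := congrArg Subtype.val hqi
    simpa using this
  have hz : x⁻¹ - ((p * q' : C₂) : F) ∈ locMax C₂ 𝔫₂ := by
    refine ⟨p * i, q, 𝔫₂.mul_mem_left _ hi, hq, ?_⟩
    push_cast
    have : (i : F) = 1 - q' * q := by rw [← hqi']; ring
    rw [this, sub_mul, hpq]
    ring
  obtain ⟨P, hP, hPc, hPz⟩ := hfin (p * q')
  have hPR : ∀ i, P.coeff i ∈ locF C₂ 𝔫₂ := fun i => hC₁ (hA (hPc i))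
  have h1 : P.eval x⁻¹ ∈ locMax C₂ 𝔫₂ := by
    have := locMax_add (eval_sub_eval_mem P hPR hinv (le_locF (p * q' : C₂).2) hz) hPz
    rwa [sub_add_cancel] at this
  have hx0 : x ≠ 0 := by
    rintro rfl
    exact hx' zero_mem_locMax
  have h2 : P.reverse.eval x = P.eval x⁻¹ * x ^ P.natDegree := by
    letI : Invertible (x⁻¹) := invertibleOfNonzero (inv_ne_zero hx0)
    have := eval₂_reverse_mul_pow (RingHom.id F) (x⁻¹) P
    rw [invOf_eq_inv, inv_inv, eval₂_id, eval₂_id] at this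
    rw [← this, mul_assoc, ← mul_pow, inv_mul_cancel₀ hx0, one_pow, mul_one]
  have h3 : P.reverse.eval x ∈ locMax C₂ 𝔫₂ := by
    rw [h2, mul_comm]
    exact locMax_mul (pow_mem hxR _) h1
  have h4 : Polynomial.X * P.reverse.divX + C 1 = P.reverse := by
    have := X_mul_divX_add P.reverse
    rwa [coeff_zero_reverse, hP.leadingCoeff] at this
  refine ⟨-(P.reverse.divX.eval x), neg_mem (eval_mem_of_coeff_mem C₁ _ (fun i => ?_) hx), ?_⟩
  · rw [coeff_divX, coeff_reverse]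
    exact hA (hPc _)
  · have h5 : x * -(P.reverse.divX.eval x) - 1 = -(P.reverse.eval x) := by
      conv_rhs => rw [← h4]
      simp only [eval_add, eval_mul, eval_X, eval_C]
      ring
    rw [h5]
    exact locMax_neg h3

theorem pullIdeal_isMaximal {C₂ : Subring F} (𝔫₂ : Ideal C₂) [𝔫₂.IsPrime] (hmax : 𝔫₂.IsMaximal)
    (A C₁ : Subring F) (hA : A ≤ C₁) (hC₁ : C₁ ≤ locF C₂ 𝔫₂)
    (hfin : ∀ z : C₂, ∃ P : F[X], P.Monic ∧ (∀ i, P.coeff i ∈ A) ∧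
      P.eval (z : F) ∈ locMax C₂ 𝔫₂) : (pullIdeal 𝔫₂ C₁ hC₁).IsMaximal := by
  rw [Ideal.isMaximal_iff]
  refine ⟨fun h => one_notMem_locMax (C := C₂) (𝔫 := 𝔫₂) h, ?_⟩
  intro J x hJ hx hxJ
  obtain ⟨x', hx'C, hxx'⟩ := exists_inv_mod 𝔫₂ hmax A C₁ hA hC₁ hfin x.2 hx
  have h1 : x * ⟨x', hx'C⟩ - 1 ∈ pullIdeal 𝔫₂ C₁ hC₁ := hxx'
  have h2 := J.sub_mem (J.mul_mem_right ⟨x', hx'C⟩ hxJ) (hJ h1)
  simpa using h2

end Transfer

/-! ### the theorem -/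

section TransferThm

open Transfer Polynomial

variable {K₀ F : Type*} [Field K₀] [Field F] [Algebra K₀ F]

theorem transfer_const_mem_chart (A₀ : Subring K₀) (x : F) {a : K₀} (ha : a ∈ A₀) :
    algebraMap K₀ F a ∈ S18.chart A₀ x := by
  refine S18.polyRing_le_chart A₀ x ((S18.mem_polyRing_iff A₀ x _).2 ⟨C a, fun i => ?_, by simp⟩)
  rw [coeff_C]
  split_ifs
  · exact ha
  · exact A₀.zero_mem

theorem transfer_chart_closed (A₀ : Subring K₀) (x z : F) (hz : IntOver (S18.chart A₀ x) z) :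
    z ∈ S18.chart A₀ x :=
  S18.mem_chart_of_isIntegral_chart A₀ x z ((isIntegral_iff_intOver _ _).2 hz)

/-- if a ring `R`, integrally closed in `F`, contains the constants and `x` then it contains the
chart of `x` -/
theorem transfer_chart_le (A₀ : Subring K₀) (x : F) (R : Subring F)
    (hR : ∀ z : F, IntOver R z → z ∈ R) (hconst : ∀ a ∈ A₀, algebraMap K₀ F a ∈ R)
    (hx : x ∈ R) : S18.chart A₀ x ≤ R := by
  have hpoly : S18.polyRing A₀ x ≤ R := by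
    intro z hz
    obtain ⟨p, hp, rfl⟩ := (S18.mem_polyRing_iff A₀ x z).1 hz
    rw [aeval_eq_sum_range]
    refine sum_mem fun i _ => ?_
    rw [Algebra.smul_def]
    exact mul_mem (hconst _ (hp i)) (pow_mem hx i)
  intro z hz
  exact hR z (((isIntegral_iff_intOver _ _).1 ((S18.mem_chart_iff_isIntegral A₀ x z).1 hz)).mono
    hpoly)

/-- Let `C₁`, `C₂` be the integral closures of `A₀[u]`, `A₀[y]`.  If `u` is regular at the maximal
ideal `𝔫₂` of `C₂` (`u = a / s`, `s ∉ 𝔫₂`) and `y = a' / s'` with `a', s' ∈ C₁`, `s'` invertible at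
`𝔫₂` (`s' * b = c` with `b, c ∈ C₂ ∖ 𝔫₂`), then regularity of `C₁` implies regularity of
`C₂` at `𝔫₂`. -/
theorem regAt_transfer (A₀ : ValuationSubring K₀) (ϖ₀ : K₀) (hϖ₀ : ϖ₀ ∈ A₀) (u y : F)
    (h₁ : RegChart A₀ ϖ₀ u 0)
    (ϖB : S18.chart A₀.toSubring y) (hϖB : (ϖB : F) = algebraMap K₀ F ϖ₀)
    (𝔫₂ : Ideal (S18.chart A₀.toSubring y)) (h𝔫₂ : 𝔫₂.IsMaximal) (hϖ : ϖB ∈ 𝔫₂)
    (hfin : ∀ z : S18.chart A₀.toSubring y, ∃ p : Polynomial K₀, p.Monic ∧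
      (∀ i, p.coeff i ∈ A₀) ∧ ∃ w ∈ 𝔫₂, (w : F) = Polynomial.aeval (z : F) p)
    (a s : S18.chart A₀.toSubring y) (hs : s ∉ 𝔫₂) (hu : u * (s : F) = a)
    (a' s' : S18.chart A₀.toSubring u) (hy : y * (s' : F) = a')
    (b c : S18.chart A₀.toSubring y) (hb : b ∉ 𝔫₂) (hc : c ∉ 𝔫₂) (hs' : (s' : F) * b = c) :
    S18.Abs.RegAt ϖB 𝔫₂ := by
  haveI : 𝔫₂.IsPrime := h𝔫₂.isPrime
  -- (1) `C₁ ⊆ R₂`
  have hC₁ : S18.chart A₀.toSubring u ≤ locF (S18.chart A₀.toSubring y) 𝔫₂ :=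
    transfer_chart_le A₀.toSubring u _
      (fun z hz => mem_locF_of_intOver (transfer_chart_closed A₀.toSubring y) hz)
      (fun a ha => le_locF (transfer_const_mem_chart A₀.toSubring y ha)) ⟨a, s, hs, hu⟩
  -- (2) the contracted ideal is maximal
  have hmax₁ : (pullIdeal 𝔫₂ (S18.chart A₀.toSubring u) hC₁).IsMaximal := by
    refine pullIdeal_isMaximal 𝔫₂ h𝔫₂ (A₀.toSubring.map (algebraMap K₀ F)) _ ?_ hC₁ ?_
    · rintro _ ⟨a, ha, rfl⟩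
      exact transfer_const_mem_chart A₀.toSubring u ha
    · intro z
      obtain ⟨p, hp, hpc, w, hw, hwz⟩ := hfin z
      refine ⟨p.map (algebraMap K₀ F), hp.map _, fun i => ?_, ?_⟩
      · rw [coeff_map]
        exact ⟨_, hpc i, rfl⟩
      · rw [eval_map, ← aeval_def, ← hwz]
        exact (coe_mem_locMax_iff w).2 hw
  haveI : (pullIdeal 𝔫₂ (S18.chart A₀.toSubring u) hC₁).IsPrime := hmax₁.isPrime
  -- (3) `C₂ ⊆ R₁`
  have hs'1 : s' ∉ pullIdeal 𝔫₂ (S18.chart A₀.toSubring u) hC₁ := by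
    intro hm
    have h1 : (s' : F) ∈ locMax (S18.chart A₀.toSubring y) 𝔫₂ := hm
    have h2 := locMax_mul (le_locF (𝔫 := 𝔫₂) b.2) h1
    rw [mul_comm, hs'] at h2
    exact hc ((coe_mem_locMax_iff c).1 h2)
  have hC₂ : S18.chart A₀.toSubring y ≤
      locF (S18.chart A₀.toSubring u) (pullIdeal 𝔫₂ (S18.chart A₀.toSubring u) hC₁) :=
    transfer_chart_le A₀.toSubring y _
      (fun z hz => mem_locF_of_intOver (transfer_chart_closed A₀.toSubring u) hz)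
      (fun a ha => le_locF (transfer_const_mem_chart A₀.toSubring u ha)) ⟨a', s', hs'1, hy⟩
  -- the two local rings coincide
  obtain ⟨hR, hM⟩ := locF_eq_of (pullIdeal 𝔫₂ (S18.chart A₀.toSubring u) hC₁) 𝔫₂ hC₁
    (mem_pullIdeal 𝔫₂ _ hC₁) hC₂
  -- (4) regularity
  have hϖ₁ : (⟨algebraMap K₀ F ϖ₀, transfer_const_mem_chart A₀.toSubring u hϖ₀⟩ :
      S18.chart A₀.toSubring u) ∈ pullIdeal 𝔫₂ (S18.chart A₀.toSubring u) hC₁ := by
    show algebraMap K₀ F ϖ₀ ∈ locMax (S18.chart A₀.toSubring y) 𝔫₂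
    rw [← hϖB]
    exact (coe_mem_locMax_iff ϖB).2 hϖ
  have hreg₁ := h₁ ⟨algebraMap K₀ F ϖ₀, transfer_const_mem_chart A₀.toSubring u hϖ₀⟩ rfl
    (pullIdeal 𝔫₂ (S18.chart A₀.toSubring u) hC₁) hmax₁ hϖ₁ (fun wB hw => by
      have : wB = 0 := Subtype.ext hw
      rw [this]
      exact Ideal.zero_mem _)
  have hloc := regLoc_of_regAt _ hreg₁
  rw [hR, hM] at hloc
  refine regAt_of_regLoc ϖB ?_
  rw [hϖB]
  exact hloc

end TransferThm

end Fermat.Agent.S37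

end
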